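import Fermat.Agent.ImW.Curve
import Fermat.Agent.MD.RPrime

/-!
# The auxiliary prime for semistable curves at `p = 3, 5`
-/

set_option autoImplicit false
set_option linter.unusedSectionVars false
set_option linter.style.haveILetI false

noncomputable section

namespace Fermat.Agent.ImW

open Matrix Module Fermat.Agent.GalRep Fermat.Agent.EC Fermat.Agent.Sel
  Fermat.Agent.CL Fermat.Agent.TWG

local notation "Ω" => AlgebraicClosure ℚ

local notation "𝒢" => (AlgebraicClosure ℚ) ≃ₐ[ℚ] (AlgebraicClosure ℚ)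

/-- a normal subgroup with abelian quotient has an element with distinct diagonal entries -/
theorem exists_diag_ne {Γ : Type} [Group Γ] {k : Type} [Field k] {ρ : Γ →* M2 k}
    (hno : NoLine ρ) (h2 : (2 : k) ≠ 0) {c : Γ} (hc : ρ c = !![1, 0; 0, -1])
    {C : Type*} [CommMonoid C] (χ : Γ →* C) :
    ∃ h : Γ, χ h = 1 ∧ ρ h 0 0 ≠ ρ h 1 1 := by
  by_contra hcon
  push Not at hcon
  have hconj : ∀ g h : Γ, χ h = 1 → χ (g * h * g⁻¹) = 1 := fun g h hh => by
    rw [map_mul, map_mul, hh, mul_one, ← map_mul, mul_inv_cancel, map_one]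
  by_cases hsc : ∀ h : Γ, χ h = 1 → ρ h 0 1 = 0 ∧ ρ h 1 0 = 0
  · -- scalar image
    refine hno (ρ c) (by rw [hc]; simp [Matrix.trace_fin_two]) (fun h0 => ?_) fun g => ?_
    · rw [hc] at h0
      have := congrFun (congrFun h0 0) 0
      simp at this
    · have h1 : χ (g * c * g⁻¹ * c⁻¹) = 1 := by
        rw [map_mul, map_mul, map_mul, mul_comm (χ g), mul_assoc (χ c), ← map_mul, mul_inv_cancel,
          map_one, mul_one, ← map_mul, mul_inv_cancel, map_one]
      refine ⟨ρ (g * c * g⁻¹ * c⁻¹) 0 0, ?_⟩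
      have h3 : ρ (g * c * g⁻¹ * c⁻¹) = (ρ (g * c * g⁻¹ * c⁻¹) 0 0) • 1 := by
        ext i j
        fin_cases i <;> fin_cases j
        · simp
        · simpa using (hsc _ h1).1
        · simpa using (hsc _ h1).2
        · simpa using (hcon _ h1).symm
      have h4 : ρ g * ρ c * ρ g⁻¹ = ρ (g * c * g⁻¹ * c⁻¹) * ρ c := by
        rw [← map_mul, ← map_mul, ← map_mul, inv_mul_cancel_right]
      rw [h4, h3, smul_mul_assoc, one_mul]
      simp
  · push Not at hsc
    obtain ⟨h, hh, hne⟩ := hsc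
    have hbc : ρ h 0 1 ≠ 0 ∨ ρ h 1 0 ≠ 0 := by
      by_cases hb : ρ h 0 1 = 0
      · exact Or.inr (hne hb)
      · exact Or.inl hb
    refine hno (!![0, ρ h 0 1; ρ h 1 0, 0]) (by simp [Matrix.trace_fin_two]) (fun h0 => ?_)
      fun g => ?_
    · rcases hbc with h1 | h1
      · apply h1
        have := congrFun (congrFun h0 0) 1
        simpa using this
      · apply h1
        have := congrFun (congrFun h0 1) 0
        simpa using this
    · have hX : ρ h = (ρ h 0 0) • 1 + !![0, ρ h 0 1; ρ h 1 0, 0] := by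
        ext i j
        fin_cases i <;> fin_cases j
        · simp
        · simp
        · simp
        · simpa using (hcon _ hh).symm
      have hg1 : ρ g * ρ g⁻¹ = 1 := by rw [← map_mul, mul_inv_cancel, map_one]
      have hg2 : ρ g⁻¹ * ρ g = 1 := by rw [← map_mul, inv_mul_cancel, map_one]
      have hk := hconj g h hh
      set k' := g * h * g⁻¹ with hk'
      have hkρ : ρ k' = ρ g * ρ h * ρ g⁻¹ := by rw [hk', map_mul, map_mul]
      have htr : ρ k' 0 0 = ρ h 0 0 := by
        have h5 : (ρ k').trace = (ρ h).trace := by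
          rw [hkρ, Matrix.trace_mul_comm, ← mul_assoc, hg2, one_mul]
        rw [Matrix.trace_fin_two, Matrix.trace_fin_two, ← hcon _ hk, ← hcon _ hh] at h5
        have h6 : (2 : k) * (ρ k' 0 0 - ρ h 0 0) = 0 := by linear_combination h5
        exact sub_eq_zero.1 ((mul_eq_zero.1 h6).resolve_left h2)
      have hk1 : ρ k' = (ρ h 0 0) • 1 + !![0, ρ k' 0 1; ρ k' 1 0, 0] := by
        ext i j
        fin_cases i <;> fin_cases j
        · simpa using htr
        · simp
        · simp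
        · simpa using (hcon _ hk).symm.trans htr
      have hconjX : ρ g * !![0, ρ h 0 1; ρ h 1 0, 0] * ρ g⁻¹ = !![0, ρ k' 0 1; ρ k' 1 0, 0] := by
        have h7 : ρ g * ρ h * ρ g⁻¹ = (ρ h 0 0) • 1 + !![0, ρ k' 0 1; ρ k' 1 0, 0] := by
          rw [← hkρ, ← hk1]
        rw [hX, mul_add, add_mul, mul_smul_comm, mul_one, smul_mul_assoc, hg1] at h7
        simp only [Matrix.add_apply, Matrix.smul_apply, Matrix.one_apply_eq, smul_eq_mul, mul_one,
          Matrix.of_apply, Matrix.cons_val', Matrix.cons_val_zero, Matrix.cons_val_one,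
          Matrix.cons_val_fin_one, add_zero] at h7
        simpa using h7
      have hprod : ρ h 0 1 * ρ k' 1 0 = ρ h 1 0 * ρ k' 0 1 := by
        have h8 := hcon (h * k') (by rw [map_mul, hh, hk, mul_one])
        rw [map_mul, Matrix.mul_apply, Matrix.mul_apply, Fin.sum_univ_two, Fin.sum_univ_two,
          ← hcon _ hk, ← hcon _ hh] at h8
        linear_combination h8
      rw [hconjX]
      rcases hbc with h1 | h1
      · refine ⟨ρ k' 0 1 / ρ h 0 1, ?_⟩
        ext i j
        fin_cases i <;> fin_cases j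
        · simp
        · simp [div_mul_cancel₀ _ h1]
        · simp only [Fin.mk_one, Fin.isValue, Fin.zero_eta, Matrix.of_apply, Matrix.cons_val',
            Matrix.cons_val_zero, Matrix.cons_val_one, Matrix.cons_val_fin_one, Matrix.smul_apply,
            smul_eq_mul]
          rw [div_mul_eq_mul_div, eq_div_iff h1]
          linear_combination hprod
        · simp
      · refine ⟨ρ k' 1 0 / ρ h 1 0, ?_⟩
        ext i j
        fin_cases i <;> fin_cases j
        · simp
        · simp only [Fin.mk_one, Fin.isValue, Fin.zero_eta, Matrix.of_apply, Matrix.cons_val',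
            Matrix.cons_val_zero, Matrix.cons_val_one, Matrix.cons_val_fin_one, Matrix.smul_apply,
            smul_eq_mul]
          rw [div_mul_eq_mul_div, eq_div_iff h1]
          linear_combination -hprod
        · simp [div_mul_cancel₀ _ h1]
        · simp

variable {W : WeierstrassCurve ℤ} {p : ℕ} [hp : Fact p.Prime] {ρ : 𝒢 →* M2 (ZMod p)}

/-- an element where the cyclotomic character is `-1` and the trace is nonzero -/
theorem ResW.exists_g (hss : W.IsSemistableModel) (hp35 : p = 3 ∨ p = 5) (h : ResW W p ρ)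
    (n : ℕ) [NeZero n] : ∃ g : 𝒢, cyc n g = -1 ∧ (ρ g).trace ≠ 0 := by
  have hp2 : p ≠ 2 := by rcases hp35 with h | h <;> omega
  have hno : NoLine ρ := by
    have h1 := h.noLine hss hp35 (RingHom.id (ZMod p))
    have h2 : extW ρ (RingHom.id (ZMod p)) = ρ := by
      refine MonoidHom.ext fun σ => Matrix.ext fun i j => ?_
      rw [extW_apply]
      rfl
    rwa [h2] at h1
  obtain ⟨g, hg, hne⟩ := exists_diag_ne hno (two_ne (p := p) hp2) h.conj (cyc n)
  refine ⟨complexConjugation * g, ?_, ?_⟩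
  · rw [map_mul, hg, mul_one, cyc_complexConjugation]
  · rw [map_mul, h.conj, Matrix.trace_fin_two, Matrix.mul_apply, Matrix.mul_apply,
      Fin.sum_univ_two, Fin.sum_univ_two]
    simp only [Matrix.of_apply, Matrix.cons_val', Matrix.cons_val_zero, Matrix.cons_val_one,
      Matrix.cons_val_fin_one, one_mul, zero_mul, add_zero, zero_add, neg_one_mul]
    intro h0
    exact hne (by linear_combination h0)

/-- **(R')** the auxiliary prime -/
theorem ResW.exists_rprime (hΔ : W.Δ ≠ 0) (hss : W.IsSemistableModel) (hp35 : p = 3 ∨ p = 5)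
    (h : ResW W p ρ) {k : Type} [Field k] (κ : ZMod p →+* k) {S : Set ℕ} (hS : S.Finite) :
    ∃ r : ℕ, r.Prime ∧ r ∉ S ∧ r % 12 = 11 ∧ 12 * p ∣ r + 1 ∧ r ≠ p ∧ W.IsGoodPrimeFor r ∧
      (r : k) = -1 ∧ (r : k) ≠ 1 ∧ ¬ (p : ℤ) ∣ W.apOfModel r ∧
      ∀ A : ValuationSubring Ω, A.LiesOverPrime r → ∀ Φ : 𝒢, A.IsFrobeniusAt Φ r →
        (extW ρ κ Φ).trace ≠ 0 ∧ (extW ρ κ Φ).trace ^ 2 ≠ ((r : k) + 1) ^ 2 := by
  have hp2 : p ≠ 2 := by rcases hp35 with h | h <;> omega
  have h2k : (2 : ZMod p) ≠ 0 := two_ne (p := p) hp2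
  haveI : NeZero (12 * p) := ⟨mul_ne_zero (by norm_num) hp.out.ne_zero⟩
  obtain ⟨g, hgc, hg⟩ := h.exists_g hss hp35 (12 * p)
  obtain ⟨F, hF, hFρ⟩ := h.lc
  obtain ⟨L, hL, hL12⟩ := exists_level_cyc (12 * p)
  haveI := isElliptic_EQ hΔ
  have hfin : (PRem.badS W (12 * p) p).Finite :=
    PRem.finite_badS (E := EQ W) (isIntegralModelOf_EQ W) (NeZero.ne _)
  obtain ⟨l, hl, hlS, A, hA, τ, hτ, n, m, h3, h4⟩ := Cheb.exists_isFrobeniusAt_pow_mem
    (S ∪ PRem.badS W (12 * p) p) (hS.union hfin) (F ⊔ L).fixingSubgroup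
    (IntermediateField.fixingSubgroup_isOpen (F ⊔ L)) g
  have hlS' : l ∉ S := fun h => hlS (Or.inl h)
  have hlb : l ∉ PRem.badS W (12 * p) p := fun h => hlS (Or.inr h)
  simp only [PRem.badS, Set.mem_ofPred_eq, not_or, not_not] at hlb
  have hgood := hlb.2
  have hl12 : ¬ l ∣ 12 * p := fun h => hlb.1 (dvd_mul_of_dvd_left h _)
  have hlp : l ≠ p := fun h => hlb.1 (h ▸ dvd_mul_left _ _)
  have hgτ : ∀ x ∈ F ⊔ L, (g⁻¹ * τ ^ n : 𝒢) x = x := fun x hx => h3 ⟨x, hx⟩
  have hτg : ∀ x ∈ F ⊔ L, (τ⁻¹ * g ^ m : 𝒢) x = x := fun x hx => h4 ⟨x, hx⟩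
  have hρ1 : ρ τ ^ n = ρ g := by
    have h5 := hFρ _ fun x hx => hgτ x ((le_sup_left : F ≤ F ⊔ L) hx)
    have h6 : ρ (g * (g⁻¹ * τ ^ n)) = ρ g := by rw [map_mul, h5, mul_one]
    rwa [mul_inv_cancel_left, map_pow] at h6
  have hc1 : cyc (12 * p) τ ^ n = -1 := by
    have h5 := hL12 _ fun x hx => hgτ x ((le_sup_right : L ≤ F ⊔ L) hx)
    have h6 : cyc (12 * p) (g * (g⁻¹ * τ ^ n)) = cyc (12 * p) g := by rw [map_mul, h5, mul_one]
    rw [mul_inv_cancel_left, map_pow, hgc] at h6
    exact h6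
  have hc2 : cyc (12 * p) τ = (-1) ^ m := by
    have h5 := hL12 _ fun x hx => hτg x ((le_sup_right : L ≤ F ⊔ L) hx)
    have h6 : cyc (12 * p) (τ * (τ⁻¹ * g ^ m)) = cyc (12 * p) τ := by rw [map_mul, h5, mul_one]
    rw [mul_inv_cancel_left, map_pow, hgc] at h6
    exact h6.symm
  have hne1 : (1 : ZMod (12 * p)) ≠ -1 := by
    intro h0
    have h5 := congrArg (ZMod.castHom (dvd_mul_left p 12) (ZMod p)) h0
    rw [map_one, map_neg, map_one] at h5
    exact h2k (by linear_combination h5)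
  have hc3 : cyc (12 * p) τ = -1 := by
    rcases Nat.even_or_odd m with hm | hm
    · rw [hm.neg_one_pow] at hc2
      rw [hc2, one_pow] at hc1
      exact absurd hc1 hne1
    · rw [hc2, hm.neg_one_pow]
  have hn : Odd n := by
    rcases Nat.even_or_odd n with hn | hn
    · rw [hc3, hn.neg_one_pow] at hc1
      exact absurd hc1 hne1
    · exact hn
  have hcop : Nat.Coprime l (12 * p) := (Nat.Prime.coprime_iff_not_dvd hl).2 hl12
  have hdvd : 12 * p ∣ l + 1 := by
    have h5 := cyc_frobenius hcop hA hτ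
    rw [hc3] at h5
    rw [← ZMod.natCast_eq_zero_iff]
    push_cast
    rw [← h5]
    ring
  have hmod : l % 12 = 11 := by
    obtain ⟨t, ht⟩ := hdvd
    have h5 : l + 1 = 12 * (p * t) := by rw [ht]; ring
    omega
  have hlk : ∀ {F : Type} [Field F] (κ : ZMod p →+* F), (l : F) = -1 := by
    intro F _ κ
    have h5 : ((l + 1 : ℕ) : ZMod p) = 0 := by
      rw [ZMod.natCast_eq_zero_iff]
      exact (dvd_mul_left p 12).trans hdvd
    have h6 := congrArg κ h5
    rw [map_natCast, _root_.map_zero] at h6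
    push_cast at h6
    linear_combination h6
  have hdet : (ρ τ).det = -1 := by
    rw [h.det, cyc_frobenius ((Nat.coprime_primes hl hp.out).2 hlp) hA hτ]
    exact hlk (RingHom.id (ZMod p))
  have htr : (ρ τ).trace ≠ 0 := by
    intro h0
    have h5 : ρ τ * ρ τ = 1 := by
      rw [sq_of_tr h0, hdet, neg_neg, one_smul]
    have h6 : ρ τ ^ n = ρ τ := by
      obtain ⟨j, rfl⟩ := hn
      rw [pow_succ, pow_mul, pow_two, h5, one_pow, one_mul]
    rw [← hρ1, h6] at hg
    exact hg h0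
  have htrΦ : ∀ A : ValuationSubring Ω, A.LiesOverPrime l → ∀ Φ : 𝒢, A.IsFrobeniusAt Φ l →
      (extW ρ κ Φ).trace ≠ 0 := by
    intro A' hA' Φ hΦ h0
    have h6 : (ρ Φ).trace = (ρ τ).trace := by
      rw [h.trace l hl hgood hlp A' hA' Φ hΦ, h.trace l hl hgood hlp A hA τ hτ]
    have h7 : (extW ρ κ Φ).trace = κ (ρ τ).trace := by
      rw [Matrix.trace_fin_two, extW_apply, extW_apply, ← map_add, ← h6, Matrix.trace_fin_two]
    rw [h7] at h0
    exact htr ((_root_.map_eq_zero κ).1 h0)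
  refine ⟨l, hl, hlS', hmod, hdvd, hlp, hgood, hlk κ, fun h0 => ?_, fun h0 => ?_,
    fun A' hA' Φ hΦ => ⟨htrΦ A' hA' Φ hΦ, fun h0 => ?_⟩⟩
  · rw [hlk κ] at h0
    apply h2k
    apply κ.injective
    rw [_root_.map_zero, map_ofNat]
    linear_combination -h0
  · apply htr
    rw [h.trace l hl hgood hlp A hA τ hτ, ZMod.intCast_zmod_eq_zero_iff_dvd]
    exact h0
  · rw [hlk κ, neg_add_cancel, zero_pow two_ne_zero] at h0
    exact htrΦ A' hA' Φ hΦ (pow_eq_zero_iff two_ne_zero |>.1 h0)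

end Fermat.Agent.ImW
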