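import Fermat.Agent.ImW.NoLine
import Fermat.Agent.CL.Model

/-!
# The matrix representation on the `p`-torsion of a semistable curve
-/

set_option autoImplicit false
set_option linter.unusedSectionVars false
set_option linter.style.haveILetI false

noncomputable section

namespace Fermat.Agent.ImW

open Matrix Module Fermat.Agent.GalRep Fermat.Agent.PRem Fermat.Agent.EC Fermat.Agent.Sel
  Fermat.Agent.CL Fermat.Agent.TWG
open WeierstrassCurve WeierstrassCurve.Affine WeierstrassCurve.Affine.Point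

local notation "Ω" => AlgebraicClosure ℚ

local notation "𝒢" => (AlgebraicClosure ℚ) ≃ₐ[ℚ] (AlgebraicClosure ℚ)

/-- the properties of a matrix representation on the `p`-torsion of an integral model -/
structure ResW (W : WeierstrassCurve ℤ) (p : ℕ) [Fact p.Prime] (ρ : 𝒢 →* M2 (ZMod p)) : Prop where
  basis : ∃ b : Module.Basis (Fin 2) (ZMod p) (TE (EQ W) p),
    ∀ σ, ρ σ = LinearMap.toMatrixAlgEquiv b (repE (EQ W) p σ)
  conj : ρ complexConjugation = !![1, 0; 0, -1]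
  g0 : ∃ g₀, ρ g₀ 0 1 = 1
  k0 : ∃ k₀, ρ k₀ 1 0 ≠ 0
  det : ∀ σ, (ρ σ).det = cyc p σ
  lc : ∃ F : IntermediateField ℚ Ω, FiniteDimensional ℚ F ∧ ∀ σ : 𝒢, (∀ x ∈ F, σ x = x) → ρ σ = 1
  unr : ∀ l : ℕ, l.Prime → ¬ (l : ℤ) ∣ W.Δ → l ≠ p → ∀ A : ValuationSubring Ω, A.LiesOverPrime l →
    ∀ σ ∈ A.inertiaSubgroupIn ℚ, ρ σ = 1
  unip : ∀ q : ℕ, q.Prime → ((q : ℤ) ∣ W.Δ → ¬ (q : ℤ) ∣ W.c₄) → q ≠ p →
    ∀ A : ValuationSubring Ω, A.LiesOverPrime q → ∀ σ ∈ A.inertiaSubgroupIn ℚ,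
    (ρ σ - 1) * (ρ σ - 1) = 0
  trace : ∀ l : ℕ, l.Prime → W.IsGoodPrimeFor l → l ≠ p → ∀ A : ValuationSubring Ω,
    A.LiesOverPrime l → ∀ τ : 𝒢, A.IsFrobeniusAt τ l → (ρ τ).trace = ((W.apOfModel l : ℤ) : ZMod p)

theorem exists_resW {W : WeierstrassCurve ℤ} (hΔ : W.Δ ≠ 0) {p : ℕ} [hp : Fact p.Prime]
    (hp2 : p ≠ 2) (hirr : W.ModRepIsIrreducible p) :
    ∃ ρ : 𝒢 →* M2 (ZMod p), ResW W p ρ := by
  classical
  haveI := isElliptic_EQ hΔ
  have hodd : Odd p := hp.out.odd_of_ne_two hp2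
  have hE : finrank (ZMod p) (TE (EQ W) p) = 2 := finrank_TE hp2
  have hirr' := irr_repE (E := EQ W) (p := p) hirr
  have hf := frobRel_E (E := EQ W) hp2 (isIntegralModelOf_EQ W) 1
  have hSf : (badS W 1 p).Finite := finite_badS (E := EQ W) (isIntegralModelOf_EQ W) one_ne_zero
  have hpb : p ∈ badS W 1 p := Or.inl (by rw [one_mul])
  haveI : FiniteDimensional (ZMod p) (TE (EQ W) p) :=
    FiniteDimensional.of_finrank_pos (by rw [hE]; norm_num)
  have h2p : (2 : ZMod p) ≠ 0 := by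
    intro h2
    have : ((2 : ℕ) : ZMod p) = 0 := by exact_mod_cast h2
    rw [ZMod.natCast_eq_zero_iff, Nat.prime_dvd_prime_iff_eq hp.out Nat.prime_two] at this
    exact hp2 this
  have hdet : LinearMap.det (repE (EQ W) p complexConjugation) = -1 := by
    rw [hf.det_eq_cyc hE hirr' hSf hpb, cyc_complexConjugation]
  obtain ⟨b₀, hb₀⟩ := exists_basis (repE (EQ W) p) hE h2p complexConjugation_mul_self hdet
  obtain ⟨g₀, hg₀⟩ := exists_offdiag hE hirr' b₀ (i := 0) (j := 1) (by decide)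
  obtain ⟨k₀, hk₀⟩ := exists_offdiag hE hirr' b₀ (i := 1) (j := 0) (by decide)
  obtain ⟨lam, hlam⟩ : ∃ lam : (ZMod p)ˣ,
      (lam : ZMod p) * LinearMap.toMatrixAlgEquiv b₀ (repE (EQ W) p g₀) 0 1 = 1 :=
    ⟨(Units.mk0 _ hg₀)⁻¹, by rw [Units.val_inv_eq_inv_val, Units.val_mk0, inv_mul_cancel₀ hg₀]⟩
  let b := b₀.unitsSMul ![1, lam]
  have hent : ∀ (f : Module.End (ZMod p) (TE (EQ W) p)) (i j : Fin 2),
      LinearMap.toMatrixAlgEquiv b f i j = (((![1, lam] i)⁻¹ * ![1, lam] j : (ZMod p)ˣ) : ZMod p) *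
        LinearMap.toMatrixAlgEquiv b₀ f i j := by
    intro f i j
    rw [LinearMap.toMatrixAlgEquiv_apply, LinearMap.toMatrixAlgEquiv_apply, Basis.repr_unitsSMul,
      Basis.unitsSMul_apply, Units.smul_def, Units.smul_def, map_smul, map_smul,
      Finsupp.smul_apply, smul_eq_mul, smul_eq_mul, Units.val_mul]
    ring
  let ρ := CL.matOf (repE (EQ W) p) b
  have hρ : ∀ σ, ρ σ = LinearMap.toMatrixAlgEquiv b (repE (EQ W) p σ) := fun σ => rfl
  have hdetρ : ∀ σ, (ρ σ).det = cyc p σ := fun σ => by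
    rw [← hf.det_eq_cyc hE hirr' hSf hpb]
    exact CL.matOf_det _ _ _
  have hlc : ∃ F : IntermediateField ℚ Ω, FiniteDimensional ℚ F ∧
      ∀ σ : 𝒢, (∀ x ∈ F, σ x = x) → ρ σ = 1 := by
    obtain ⟨L, hL, hL'⟩ := hf.level
    exact ⟨L, hL, fun σ hσ => by rw [hρ, hL' σ hσ, map_one]⟩
  have hpt : ∀ x : TE (EQ W) p, p • (x : ((EQ W)⁄Ω).Point) = 0 := fun x => by
    have := (Submodule.mem_torsionBy_iff (p : ℤ) (x : ((EQ W)⁄Ω).Point)).mp x.2
    rwa [natCast_zsmul] at this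
  refine ⟨ρ, ⟨b, hρ⟩, ?_, ⟨g₀, ?_⟩, ⟨k₀, ?_⟩, hdetρ, hlc, ?_, ?_, ?_⟩
  · ext i j
    rw [hρ, hent, hb₀]
    fin_cases i <;> fin_cases j
    · change (((![1, lam] 0)⁻¹ * ![1, lam] 0 : (ZMod p)ˣ) : ZMod p) * 1 = 1
      rw [inv_mul_cancel, Units.val_one, mul_one]
    · exact mul_zero _
    · exact mul_zero _
    · change (((![1, lam] 1)⁻¹ * ![1, lam] 1 : (ZMod p)ˣ) : ZMod p) * (-1) = -1
      rw [inv_mul_cancel, Units.val_one, one_mul]
  · rw [hρ, hent]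
    simpa using hlam
  · rw [hρ, hent]
    exact mul_ne_zero (Units.ne_zero _) hk₀
  · intro l hl hl0 hlp A hA σ hσ
    have h1 : repE (EQ W) p σ = 1 := by
      refine LinearMap.ext fun x => Subtype.ext ?_
      exact fix_model hl hl0 hA hσ hodd (by
        rwa [Nat.prime_dvd_prime_iff_eq hl hp.out]) (hpt x)
    rw [hρ, h1, map_one]
  · intro q hq hss hqp A hA σ hσ
    have h1 : (repE (EQ W) p σ - 1) * (repE (EQ W) p σ - 1) = 0 := by
      refine LinearMap.ext fun x => Subtype.ext ?_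
      have h2 := unip_model hΔ hq hss hA hσ hodd (by
        rwa [Nat.prime_dvd_prime_iff_eq hq hp.out]) (hpt x)
      have h3 : (((repE (EQ W) p σ - 1) * (repE (EQ W) p σ - 1)) x : TE (EQ W) p) =
          (repE (EQ W) p σ (repE (EQ W) p σ x) - repE (EQ W) p σ x) - (repE (EQ W) p σ x - x) := by
        change (repE (EQ W) p σ - 1) ((repE (EQ W) p σ - 1) x) = _
        rw [LinearMap.sub_apply, LinearMap.sub_apply, map_sub]
        rfl
      rw [h3]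
      change (σ • σ • (x : ((EQ W)⁄Ω).Point) - σ • (x : ((EQ W)⁄Ω).Point)) -
        (σ • (x : ((EQ W)⁄Ω).Point) - x) = 0
      rw [← h2, two_nsmul]
      abel
    rw [hρ, ← map_one (LinearMap.toMatrixAlgEquiv b), ← map_sub, ← map_mul, h1, _root_.map_zero]
  · intro l hl hgood hlp A hA τ hτ
    have h1 := hf.trace_frob hE hirr' hSf hpb hl (by
        simp only [badS, Set.mem_ofPred_eq, not_or, not_not]
        refine ⟨?_, hgood⟩
        rw [one_mul, Nat.prime_dvd_prime_iff_eq hl hp.out]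
        exact hlp) hA hτ
    exact (CL.matOf_trace _ _ _).trans h1.1

/-- extension of scalars -/
def extW {k : Type} [Field k] {p : ℕ} (ρ : 𝒢 →* M2 (ZMod p)) (ι : ZMod p →+* k) : 𝒢 →* M2 k :=
  (ι.mapMatrix : M2 (ZMod p) →+* M2 k).toMonoidHom.comp ρ

theorem extW_apply {k : Type} [Field k] {p : ℕ} (ρ : 𝒢 →* M2 (ZMod p)) (ι : ZMod p →+* k) (σ : 𝒢)
    (i j : Fin 2) : extW ρ ι σ i j = ι (ρ σ i j) := rfl

theorem ResW.oddRep {W : WeierstrassCurve ℤ} (hss : W.IsSemistableModel) {p : ℕ} [hp : Fact p.Prime]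
    {ρ : 𝒢 →* M2 (ZMod p)} (h : ResW W p ρ) {k : Type} [Field k] (ι : ZMod p →+* k) :
    OddRep p ι (extW ρ ι) := by
  have hm : ∀ σ, extW ρ ι σ = ι.mapMatrix (ρ σ) := fun _ => rfl
  refine ⟨?_, ?_, ?_, ?_, ?_, ?_⟩
  · rw [hm, h.conj]
    ext i j
    fin_cases i <;> fin_cases j <;> simp
  · obtain ⟨g, hg⟩ := h.g0
    refine ⟨g, ?_⟩
    rw [extW_apply, hg, map_one]
    exact one_ne_zero
  · obtain ⟨g, hg⟩ := h.k0
    refine ⟨g, ?_⟩
    rw [extW_apply]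
    exact (map_ne_zero ι).2 hg
  · intro σ
    rw [hm, ← RingHom.map_det, h.det]
  · obtain ⟨F, hF, hF'⟩ := h.lc
    exact ⟨F, hF, fun σ hσ => by rw [hm, hF' σ hσ, map_one]⟩
  · intro q hq hqp A hA σ hσ
    have := congrArg ι.mapMatrix (h.unip q hq (hss q hq) hqp A hA σ hσ)
    rwa [map_mul, map_sub, map_one, _root_.map_zero] at this

/-- **S59 (a)** -/
theorem ResW.noLine {W : WeierstrassCurve ℤ} (hss : W.IsSemistableModel) {p : ℕ}
    [hp : Fact p.Prime] (hp35 : p = 3 ∨ p = 5) {ρ : 𝒢 →* M2 (ZMod p)} (h : ResW W p ρ)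
    {k : Type} [Field k] [CharP k p] (ι : ZMod p →+* k) : NoLine (extW ρ ι) :=
  ImW.noLine (h.oddRep hss ι) hp35

end Fermat.Agent.ImW
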