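import Fermat.Agent.Places.Minkowski

/-!
# `ℚ(ζ₃)` and `ℚ(ζ₅)` have no unramified extensions
-/

set_option autoImplicit false
set_option linter.unusedSectionVars false
set_option linter.style.haveILetI false

namespace Fermat.Agent.ImW

open NumberField Ideal Fermat.Agent.Cheb Fermat.Agent.Places

noncomputable section

/-! ### numerics -/

/-- the Minkowski bound -/
def mb (n : ℕ) : ℝ := (n : ℝ) ^ (n * 2) / ((4 / Real.pi) ^ n * (n.factorial : ℝ) ^ 2)

theorem mb_pos {n : ℕ} (hn : 1 ≤ n) : 0 < mb n := by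
  unfold mb
  have : (0 : ℝ) < n := by exact_mod_cast hn
  positivity

theorem bern {m : ℕ} (hm : 2 ≤ m) : (9 / 4 : ℝ) ≤ (1 + 1 / m : ℝ) ^ m := by
  have hm0 : (0 : ℝ) < m := by
    have : 0 < m := by omega
    exact_mod_cast this
  obtain ⟨n, rfl⟩ : ∃ n, m = n + 2 := ⟨m - 2, by omega⟩
  rw [add_pow]
  have h1 : ∀ i ∈ Finset.range (n + 2 + 1),
      0 ≤ (1 : ℝ) ^ i * (1 / ((n + 2 : ℕ) : ℝ)) ^ (n + 2 - i) * ((n + 2).choose i : ℝ) := by
    intro i _
    positivity
  have hsub : ({n, n + 1, n + 2} : Finset ℕ) ⊆ Finset.range (n + 2 + 1) := by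
    intro i hi
    simp only [Finset.mem_insert, Finset.mem_singleton] at hi
    rw [Finset.mem_range]
    omega
  refine le_trans ?_ (Finset.sum_le_sum_of_subset_of_nonneg hsub fun i hi _ => h1 i hi)
  rw [Finset.sum_insert (by simp), Finset.sum_insert (by simp), Finset.sum_singleton]
  have e1 : n + 2 - n = 2 := by omega
  have e2 : n + 2 - (n + 1) = 1 := by omega
  have e3 : n + 2 - (n + 2) = 0 := by omega
  have c1 : ((n + 2).choose n : ℝ) = (n + 2) * (n + 1) / 2 := by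
    have : (n + 2).choose n = (n + 2).choose 2 := by
      rw [← Nat.choose_symm (by omega : n ≤ n + 2), e1]
    rw [this, Nat.cast_choose_two]
    push_cast
    ring
  have c2 : ((n + 2).choose (n + 1) : ℝ) = n + 2 := by
    have : (n + 2).choose (n + 1) = n + 2 := by
      rw [← Nat.choose_symm (by omega : n + 1 ≤ n + 2), e2, Nat.choose_one_right]
    rw [this]
    push_cast
    ring
  have c3 : ((n + 2).choose (n + 2) : ℝ) = 1 := by rw [Nat.choose_self, Nat.cast_one]
  rw [e1, e2, e3, c1, c2, c3]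
  have hn2 : ((n + 2 : ℕ) : ℝ) = (n : ℝ) + 2 := by push_cast; ring
  rw [hn2]
  have hn0 : (0 : ℝ) ≤ n := Nat.cast_nonneg n
  have hne : (n : ℝ) + 2 ≠ 0 := by positivity
  simp only [one_pow, one_mul, pow_zero, pow_one, mul_one]
  have e4 : (1 / ((n : ℝ) + 2)) ^ 2 * (((n : ℝ) + 2) * (n + 1) / 2) = (n + 1) / (2 * (n + 2)) := by
    field_simp
  have e5 : 1 / ((n : ℝ) + 2) * (n + 2) = 1 := by field_simp
  rw [e4, e5]
  have h4 : (1 / 4 : ℝ) ≤ (n + 1) / (2 * (n + 2)) := by
    rw [div_le_div_iff₀ (by norm_num) (by positivity)]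
    linarith
  linarith

theorem mb_succ {m : ℕ} (hm : 2 ≤ m) : 3.9 * mb m ≤ mb (m + 1) := by
  have hm0 : (0 : ℝ) < m := by
    have : 0 < m := by omega
    exact_mod_cast this
  have h1 : mb (m + 1) = mb m * ((1 + 1 / m : ℝ) ^ m) ^ 2 / (4 / Real.pi) := by
    unfold mb
    simp_rw [add_mul, one_mul, pow_succ, Nat.factorial_succ]
    field_simp
    simp [field, div_pow]
    ring
  have h2 := bern hm
  have h3 : (81 / 16 : ℝ) ≤ ((1 + 1 / m : ℝ) ^ m) ^ 2 := by
    have : (81 / 16 : ℝ) = (9 / 4) ^ 2 := by norm_num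
    rw [this]
    gcongr
  have hpi := Real.pi_gt_d2
  have h4 : 0 < mb m := mb_pos (by omega)
  rw [h1, div_div_eq_mul_div, le_div_iff₀ (by norm_num)]
  have h5 : mb m * (81 / 16) * 3.14 ≤ mb m * ((1 + 1 / m : ℝ) ^ m) ^ 2 * Real.pi := by
    gcongr
  nlinarith

theorem mb_four : 9 < mb 4 := by
  have hpi := Real.pi_gt_d2
  have h1 : mb 4 = 4 / 9 * Real.pi ^ 4 := by
    unfold mb
    have : Real.pi ≠ 0 := Real.pi_ne_zero
    simp only [Nat.factorial]
    push_cast
    field_simp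
    norm_num
  rw [h1]
  have h2 : (3.14 : ℝ) ^ 4 ≤ Real.pi ^ 4 := by gcongr
  have h3 : (9 : ℝ) < 4 / 9 * 3.14 ^ 4 := by norm_num
  linarith

theorem mb_eight : 15625 < mb 8 := by
  have hpi := Real.pi_gt_d2
  have h1 : mb 8 = 4194304 / 1587600 * Real.pi ^ 8 := by
    unfold mb
    have : Real.pi ≠ 0 := Real.pi_ne_zero
    simp only [Nat.factorial]
    push_cast
    field_simp
    norm_num
  rw [h1]
  have h2 : (3.14 : ℝ) ^ 8 ≤ Real.pi ^ 8 := by gcongr
  have h3 : (15625 : ℝ) < 4194304 / 1587600 * 3.14 ^ 8 := by norm_num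
  linarith

theorem mb_three {m : ℕ} (hm : 2 ≤ m) : (3 : ℝ) ^ m < mb (2 * m) := by
  induction m, hm using Nat.le_induction with
  | base =>
    have := mb_four
    norm_num
    linarith
  | succ m hm ih =>
    have h1 := mb_succ (m := 2 * m) (by omega)
    have h2 := mb_succ (m := 2 * m + 1) (by omega)
    have h3 : 0 < mb (2 * m) := mb_pos (by omega)
    rw [show 2 * (m + 1) = 2 * m + 1 + 1 by ring, pow_succ]
    linarith

theorem mb_five {m : ℕ} (hm : 2 ≤ m) : (125 : ℝ) ^ m < mb (4 * m) := by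
  induction m, hm using Nat.le_induction with
  | base =>
    have := mb_eight
    norm_num
    linarith
  | succ m hm ih =>
    have h1 := mb_succ (m := 4 * m) (by omega)
    have h2 := mb_succ (m := 4 * m + 1) (by omega)
    have h3 := mb_succ (m := 4 * m + 1 + 1) (by omega)
    have h4 := mb_succ (m := 4 * m + 1 + 1 + 1) (by omega)
    have h5 : 0 < mb (4 * m) := mb_pos (by omega)
    rw [show 4 * (m + 1) = 4 * m + 1 + 1 + 1 + 1 by ring, pow_succ]
    linarith

theorem mb_le_discr (K : Type*) [Field K] [NumberField K] :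
    mb (Module.finrank ℚ K) ≤ |discr K| := by
  refine le_trans ?_ (abs_discr_ge' K)
  unfold mb
  rw [mul_comm (Module.finrank ℚ K) 2]
  gcongr
  · exact (one_le_div Real.pi_pos).2 Real.pi_le_four
  · rw [← InfinitePlace.card_add_two_mul_card_eq_rank, mul_comm]
    exact Nat.le_add_left _ _

/-! ### the number field statement -/

variable {K : Type*} [Field K] [NumberField K] [IsGalois ℚ K]

theorem different_eq_top (H : Subgroup Gal(K/ℚ))
    (hH : ∀ P : Ideal (𝓞 K), P.IsPrime → P ≠ ⊥ → ∀ σ ∈ P.inertia Gal(K/ℚ), σ ∈ H → σ = 1) :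
    differentIdeal (𝓞 (FF K H)) (𝓞 K) = ⊤ := by
  by_contra hne
  obtain ⟨P, hPmax, hP⟩ := Ideal.exists_le_maximal _ hne
  haveI : P.IsPrime := hPmax.isPrime
  have hP0 : P ≠ ⊥ := Ring.ne_bot_of_isMaximal_of_not_isField hPmax (RingOfIntegers.not_isField K)
  set P' := P.under (𝓞 (FF K H)) with hP'
  have hP'0 : P' ≠ ⊥ := fun h => hP0 (Ideal.eq_bot_of_comap_eq_bot h)
  haveI := perfect_residueField P' hP'0
  have e2 : Nat.card (P.inertia H) = P.ramificationIdx (𝓞 (FF K H)) := by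
    rw [card_inertia_eq_ramificationIdxIn (G := H) P' P,
      Ideal.ramificationIdxIn_eq_ramificationIdx P' P H]
  have e3 : Nat.card (P.inertia H) = 1 := by
    rw [Nat.card_eq_one_iff_unique]
    refine ⟨⟨fun a b => ?_⟩, ⟨1⟩⟩
    have h1 : ∀ a : P.inertia H, a = 1 := by
      rintro ⟨⟨σ, hσ⟩, ha⟩
      have h2 : σ ∈ P.inertia Gal(K/ℚ) := ha
      have h3 := hH P inferInstance hP0 σ h2 hσ
      exact Subtype.ext (Subtype.ext h3)
    rw [h1 a, h1 b]
  have e4 : Algebra.IsUnramifiedAt (𝓞 (FF K H)) P := by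
    rw [← Ideal.ramificationIdx_eq_one_iff, ← e2, e3]
  exact (not_dvd_differentIdeal_iff.2 e4) (Ideal.dvd_iff_le.2 hP)

theorem eq_bot_of_unr {p : ℕ} [hp : Fact p.Prime] (hp35 : p = 3 ∨ p = 5)
    (H : Subgroup Gal(K/ℚ)) [hcyc : IsCyclotomicExtension {p} ℚ (FF K H)]
    (hH : ∀ P : Ideal (𝓞 K), P.IsPrime → P ≠ ⊥ → ∀ σ ∈ P.inertia Gal(K/ℚ), σ ∈ H → σ = 1) :
    H = ⊥ := by
  have h1 := different_eq_top H hH
  have h2 := natAbs_discr_eq_absNorm_differentIdeal_mul_natAbs_discr_pow (FF K H) (𝓞 (FF K H)) K (𝓞 K)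
  rw [h1, Ideal.absNorm_top, one_mul] at h2
  have h3 : (discr (FF K H)).natAbs = p ^ (p - 2) := by
    have := IsCyclotomicExtension.Rat.discr_prime p (FF K H)
    rw [this, Int.natAbs_mul, Int.natAbs_pow, Int.natAbs_neg, Int.natAbs_one, one_pow, one_mul,
      Int.natAbs_pow, Int.natAbs_natCast]
  have h4 : Module.finrank ℚ (FF K H) = p - 1 := by
    rw [IsCyclotomicExtension.finrank (FF K H) (Polynomial.cyclotomic.irreducible_rat hp.out.pos),
      Nat.totient_prime hp.out]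
  have h5 := Module.finrank_mul_finrank ℚ (FF K H) K
  obtain ⟨m, hm⟩ : ∃ m, m = Module.finrank (FF K H) K := ⟨_, rfl⟩
  have hmH : Nat.card H = m := by
    rw [hm]
    exact IsGaloisGroup.card_eq_finrank H (FF K H) K
  rw [h3, ← hm] at h2
  rw [h4, ← hm] at h5
  have hm0 : 0 < m := by rw [← hmH]; exact Nat.card_pos
  have h6 := mb_le_discr K
  have h7 : ((|discr K| : ℤ) : ℝ) = ((p ^ (p - 2)) ^ m : ℕ) := by
    rw [← h2, Nat.cast_natAbs]
  rw [← h5, h7] at h6
  by_contra hne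
  have hm2 : 2 ≤ m := by
    by_contra hcon
    have : m = 1 := by omega
    rw [this] at hmH
    exact hne ((Subgroup.eq_bot_iff_card H).2 hmH)
  rcases hp35 with rfl | rfl
  · have := mb_three hm2
    norm_num at h6
    linarith
  · have := mb_five hm2
    norm_num at h6
    linarith

end

end Fermat.Agent.ImW
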