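import Fermat.Agent.ImW.Mink
import Fermat.Agent.Places.InertiaLift
import Fermat.Agent.Sel.Primes

/-!
# `ℚ(ζ₃)` and `ℚ(ζ₅)` have no unramified extensions, in terms of places of `ℚ̄`
-/

set_option autoImplicit false
set_option linter.unusedSectionVars false
set_option linter.style.haveILetI false

namespace Fermat.Agent.ImW

open NumberField Ideal Fermat.Agent.Cheb Fermat.Agent.Places
open scoped IntermediateField

noncomputable section

theorem eq_one_of_unr' {K : Type*} [Field K] [CharZero K] [inst : Algebra ℚ K]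
    [FiniteDimensional ℚ K] [IsGalois ℚ K] {p : ℕ} [hp : Fact p.Prime] (hp35 : p = 3 ∨ p = 5)
    {ζ : K} (hζ : IsPrimitiveRoot ζ p)
    (hH : ∀ P : Ideal (𝓞 K), P.IsPrime → P ≠ ⊥ → ∀ σ : K ≃ₐ[ℚ] K,
      (∀ x : 𝓞 K, σ • x - x ∈ P) → σ ζ = ζ → σ = 1) :
    ∀ σ : K ≃ₐ[ℚ] K, σ ζ = ζ → σ = 1 := by
  obtain rfl : inst = DivisionRing.toRatAlgebra := Subsingleton.elim _ _
  haveI : NumberField K := ⟨⟩
  have hmem : ∀ σ : K ≃ₐ[ℚ] K, σ ∈ (ℚ⟮ζ⟯).fixingSubgroup ↔ σ ζ = ζ := by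
    intro σ
    rw [IntermediateField.mem_fixingSubgroup_iff]
    constructor
    · intro h
      exact h ζ (IntermediateField.mem_adjoin_simple_self ℚ ζ)
    · intro h x hx
      have h1 : ℚ⟮ζ⟯ ≤ IntermediateField.fixedField (Subgroup.zpowers σ) := by
        rw [IntermediateField.adjoin_simple_le_iff, IntermediateField.mem_fixedField_iff]
        have h2 : Subgroup.zpowers σ ≤ MulAction.stabilizer (K ≃ₐ[ℚ] K) ζ := by
          rw [Subgroup.zpowers_le]
          exact h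
        exact fun f hf => h2 hf
      exact (IntermediateField.mem_fixedField_iff _ _).1 (h1 hx) σ (Subgroup.mem_zpowers σ)
  have hFF : FF K (ℚ⟮ζ⟯).fixingSubgroup = ℚ⟮ζ⟯ := IsGalois.fixedField_fixingSubgroup _
  haveI hc : IsCyclotomicExtension {p} ℚ (FF K (ℚ⟮ζ⟯).fixingSubgroup) := by
    rw [hFF]
    exact hζ.intermediateField_adjoin_isCyclotomicExtension ℚ
  have key := eq_bot_of_unr hp35 (ℚ⟮ζ⟯).fixingSubgroup (fun P hP hP0 σ hσ hσH =>
    hH P hP hP0 σ hσ ((hmem σ).1 hσH))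
  intro σ hσ
  have h1 := (hmem σ).2 hσ
  rw [key] at h1
  exact h1

attribute [-instance] DivisionRing.toRatAlgebra

theorem fix_le {L : Type*} [Field L] [CharZero L] [inst : Algebra ℚ L] [IsGalois ℚ L]
    {p : ℕ} [hp : Fact p.Prime] (hp35 : p = 3 ∨ p = 5) {ζ : L} (hζ : IsPrimitiveRoot ζ p)
    (U : Subgroup (L ≃ₐ[ℚ] L)) [hU : U.Normal] (hUo : IsOpen (U : Set (L ≃ₐ[ℚ] L)))
    (h : ∀ q : ℕ, q.Prime → ∀ A : ValuationSubring L, A.LiesOverPrime q →
      ∀ σ ∈ A.inertiaSubgroupIn ℚ, σ ζ = ζ → σ ∈ U) :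
    ∀ σ : L ≃ₐ[ℚ] L, σ ζ = ζ → σ ∈ U := by
  classical
  -- the stabilizer of `ζ`
  let Z : Subgroup (L ≃ₐ[ℚ] L) := MulAction.stabilizer (L ≃ₐ[ℚ] L) ζ
  have hZ : ∀ σ, σ ∈ Z ↔ σ ζ = ζ := fun _ => Iff.rfl
  have hZo : IsOpen (Z : Set (L ≃ₐ[ℚ] L)) := stabilizer_isOpen_of_isIntegral ζ
  haveI hZn : Z.Normal := by
    refine ⟨fun σ hσ τ => ?_⟩
    rw [hZ] at hσ ⊢
    have h1 : (τ⁻¹ ζ) ^ p = 1 := by rw [← map_pow, hζ.pow_eq_one, map_one]
    obtain ⟨i, -, hi⟩ := hζ.eq_pow_of_pow_eq_one h1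
    change τ (σ (τ⁻¹ ζ)) = ζ
    rw [← hi, map_pow, hσ, hi]
    exact AlgEquiv.apply_symm_apply τ ζ
  let V : Subgroup (L ≃ₐ[ℚ] L) := U ⊓ Z
  have hVo : IsOpen (V : Set (L ≃ₐ[ℚ] L)) := hUo.inter hZo
  have hVn : V.Normal := Subgroup.normal_inf_normal U Z
  let E : IntermediateField ℚ L := IntermediateField.fixedField V
  have hEV : E.fixingSubgroup = V :=
    InfiniteGalois.fixingSubgroup_fixedField
      (⟨V, Subgroup.isClosed_of_isOpen V hVo⟩ : ClosedSubgroup (L ≃ₐ[ℚ] L))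
  have hfg := (InfiniteGalois.isOpen_and_normal_iff_finite_and_isGalois E).1 (by
    rw [hEV]
    exact ⟨hVo, hVn⟩)
  haveI hfin : FiniteDimensional ℚ E := hfg.1
  haveI hgal : IsGalois ℚ E := hfg.2
  have hζE : ζ ∈ E := by
    rw [IntermediateField.mem_fixedField_iff]
    intro σ hσ
    exact hσ.2
  have hζ' : IsPrimitiveRoot (⟨ζ, hζE⟩ : E) p := by
    rw [← IsPrimitiveRoot.map_iff_of_injective (f := E.val) E.val.injective]
    exact hζ
  have hres : ∀ (τ : L ≃ₐ[ℚ] L) (x : E), ((AlgEquiv.restrictNormal τ E x : E) : L) = τ x :=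
    fun τ x => AlgEquiv.restrictNormal_commutes τ E x
  have key := eq_one_of_unr' hp35 hζ' (by
    intro P hP hP0 σ hσ hσζ
    haveI : NumberField E := by
      have h2 : (E.algebra' : Algebra ℚ E) = DivisionRing.toRatAlgebra := Subsingleton.elim _ _
      exact { to_charZero := inferInstance, to_finiteDimensional := h2 ▸ hfin }
    haveI : P.IsMaximal := hP.isMaximal hP0
    haveI : (P.under ℤ).IsPrime := inferInstance
    have hp0 : P.under ℤ ≠ ⊥ := fun h => hP0 (Ideal.eq_bot_of_comap_eq_bot h)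
    obtain ⟨n, hn⟩ : (P.under ℤ).IsPrincipal := inferInstance
    have hnp : Prime n := by
      rw [← Ideal.span_singleton_prime, ← Ideal.submodule_span_eq, ← hn]
      · infer_instance
      · rintro rfl
        apply hp0
        rw [hn]; simp
    have hq : n.natAbs.Prime := Int.prime_iff_natAbs_prime.mp hnp
    have hmem : ((n.natAbs : ℕ) : 𝓞 E) ∈ P := by
      have h3 : n ∈ P.under ℤ := by rw [hn]; exact Submodule.mem_span_singleton_self n
      have h4 : ((n.natAbs : ℕ) : ℤ) ∈ P.under ℤ := by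
        rw [← Int.abs_eq_natAbs]
        rcases abs_choice n with h5 | h5
        · rw [h5]; exact h3
        · rw [h5]; exact neg_mem h3
      change algebraMap ℤ (𝓞 E) _ ∈ P at h4
      rwa [eq_intCast, Int.cast_natCast] at h4
    obtain ⟨A, hA, τ, hτ, hτσ⟩ := exists_inertia_lift E P σ hσ hmem
    have hτζ : τ ζ = ζ := by
      have h5 := hres τ ⟨ζ, hζE⟩
      rw [hτσ, hσζ] at h5
      exact h5.symm
    have h6 : τ ∈ V := ⟨h _ hq A hA τ hτ hτζ, hτζ⟩
    rw [← hEV, IntermediateField.mem_fixingSubgroup_iff] at h6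
    rw [← hτσ]
    ext x
    rw [hres τ x, h6 x x.2]
    rfl)
  intro σ hσ
  have h1 := key (AlgEquiv.restrictNormal σ E) (by
    apply Subtype.ext
    rw [hres σ ⟨ζ, hζE⟩]
    exact hσ)
  have h2 : σ ∈ E.fixingSubgroup := by
    rw [IntermediateField.mem_fixingSubgroup_iff]
    intro x hx
    have h3 := hres σ ⟨x, hx⟩
    rw [h1] at h3
    exact h3.symm
  rw [hEV] at h2
  exact h2.1

end

end Fermat.Agent.ImW
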