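import Fermat.Agent.TW.Tame

/-!
# Prime-to-`v` quotients of inertia are cyclic
-/

set_option autoImplicit false
set_option linter.unusedSectionVars false
set_option linter.style.haveILetI false

noncomputable section

namespace Fermat.Agent.ImW

open Fermat.Agent.Places Fermat.Agent.RedMod Fermat.Agent.FlatRam Fermat.Agent.Flat
  Fermat.Agent.GalRep Fermat.Agent.TW

local notation "Ω" => AlgebraicClosure ℚ

variable {A : ValuationSubring (AlgebraicClosure ℚ)} {v : ℕ} [hv : Fact v.Prime]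

variable {M : Type*} [Monoid M] {f : GQ →* M}
  (hop : ∃ L : IntermediateField ℚ Ω, FiniteDimensional ℚ L ∧
    ∀ σ : GQ, (∀ x ∈ L, σ x = x) → f σ = 1)
  (hpp : ∀ σ ∈ A.inertiaSubgroupIn ℚ, ∃ k : ℕ, ¬ v ∣ k ∧ f σ ^ k = 1)

include hop hpp in
/-- elements with trivial tame characters are in the kernel -/
theorem eq_one_of_th' (hA : A.LiesOverPrime v) {σ : GQ} (hσ : σ ∈ A.inertiaSubgroupIn ℚ)
    (h : ∀ x : Ω, x ≠ 0 → (∀ τ ∈ kerI f A, τ x = x) → th A σ x = 1) : f σ = 1 := by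
  obtain ⟨k, hkv, hk⟩ := hpp σ hσ
  refine eq_one_of_fix hop hσ fun x hx => ?_
  by_contra hne
  have hy0 : σ x - x ≠ 0 := sub_ne_zero.2 hne
  have hy : ∀ τ ∈ kerI f A, τ (σ x - x) = σ x - x := by
    intro τ hτ
    rw [map_sub, fix_of_conj hσ hx τ hτ, hx τ hτ]
  have hth := h _ hy0 hy
  have h1 := (sum_ne_zero hA (Finset.range k) (fun i => σ ^ i) hy0 (fun i _ =>
    ⟨pow_mem hσ i, by rw [th_pow_left hA hy0 hσ, hth, one_pow]⟩) (by
      rw [Finset.card_range]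
      exact hkv)).1
  apply h1
  have h2 : ∀ n : ℕ, ∑ i ∈ Finset.range n, (σ ^ i) (σ x - x) = (σ ^ n) x - x := by
    intro n
    induction n with
    | zero => simp
    | succ n ih =>
      rw [Finset.sum_range_succ, ih, map_sub, pow_succ]
      change (σ ^ n) x - x + ((σ ^ n) (σ x) - (σ ^ n) x) = (σ ^ n) (σ x) - x
      ring
  rw [h2, hx (σ ^ k) ((mem_kerI f).2 ⟨pow_mem hσ _, by rw [map_pow, hk]⟩), sub_self]

include hop hpp in
/-- integrality of valuations -/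
theorem w_int_of_tame' (hA : A.LiesOverPrime v) {x : Ω} (hx0 : x ≠ 0)
    (hx : ∀ τ ∈ kerI f A, τ x = x) (hth : ∀ σ ∈ A.inertiaSubgroupIn ℚ, th A σ x = 1) :
    ∃ n : ℤ, (rval A v hA).w x = n := by
  classical
  -- the image of inertia is a finite `p`-group
  let F : A.inertiaSubgroupIn ℚ →* Mˣ := f.toHomUnits.comp (A.inertiaSubgroupIn ℚ).subtype
  have hfin : Finite F.range := by
    have h1 := finite_image hop
    have h2 : (F.range : Set Mˣ).Finite := by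
      refine Set.Finite.of_finite_image (f := fun u : Mˣ => (u : M)) (h1.subset ?_)
        Units.val_injective.injOn
      rintro _ ⟨_, ⟨σ, rfl⟩, rfl⟩
      exact ⟨σ, rfl⟩
    exact h2
  haveI := Fintype.ofFinite F.range
  have hcard : ¬ v ∣ Fintype.card F.range := by
    intro hd
    obtain ⟨⟨_, σ, rfl⟩, hg⟩ := exists_prime_orderOf_dvd_card v hd
    obtain ⟨k, hkv, hk⟩ := hpp σ σ.2
    have h3 : (⟨F σ, σ, rfl⟩ : F.range) ^ k = 1 := by
      apply Subtype.ext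
      apply Units.ext
      change f σ ^ k = 1
      exact hk
    exact hkv (hg ▸ orderOf_dvd_of_pow_eq_one h3)
  choose r hr using fun c : F.range => c.2
  obtain ⟨h1, h2⟩ := sum_ne_zero hA (Finset.univ : Finset F.range) (fun c => (r c : GQ)) hx0
    (fun c _ => ⟨(r c).2, hth _ (r c).2⟩) (by rwa [Finset.card_univ])
  rw [← h2]
  have hK : (∑ c : F.range, (r c : GQ) x) ∈ K0 A := by
    rw [K0, IntermediateField.mem_fixedField_iff]
    intro σ hσ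
    rw [map_sum]
    refine Fintype.sum_equiv (Equiv.mulLeft (⟨F ⟨σ, hσ⟩, ⟨_, rfl⟩⟩ : F.range)) _ _ fun c => ?_
    rw [Equiv.coe_mulLeft]
    set c' : F.range := (⟨F ⟨σ, hσ⟩, ⟨_, rfl⟩⟩ : F.range) * c with hc'
    have h3 : ((r c' : GQ))⁻¹ * (σ * (r c : GQ)) ∈ kerI f A := by
      rw [mem_kerI]
      refine ⟨mul_mem (inv_mem (r c').2) (mul_mem hσ (r c).2), ?_⟩
      have e1 : F (r c') = F ⟨σ, hσ⟩ * F (r c) := by rw [hr, hr, hc']; rfl
      have e2 : F ((r c')⁻¹ * (⟨σ, hσ⟩ * r c)) = 1 := by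
        rw [map_mul, map_inv, map_mul, e1, inv_mul_cancel]
      exact congrArg Units.val e2
    have h4 := hx _ h3
    have h5 : (r c' : GQ) ((((r c' : GQ))⁻¹ * (σ * (r c : GQ))) x) = σ ((r c : GQ) x) := by
      change ((r c' : GQ) * (((r c' : GQ))⁻¹ * (σ * (r c : GQ)))) x = (σ * (r c : GQ)) x
      rw [mul_inv_cancel_left]
    rw [← h5, h4]
  exact (rval A v hA).w_int (⟨_, hK⟩ : K0 A) (fun h => h1 (congrArg Subtype.val h))

include hop hpp in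
/-- **Tame inertia is cyclic.** -/
theorem exists_gen_tame' (hA : A.LiesOverPrime v) :
    ∃ σ₀ ∈ A.inertiaSubgroupIn ℚ, ∀ σ ∈ A.inertiaSubgroupIn ℚ, ∃ n : ℕ, f σ = f σ₀ ^ n := by
  classical
  -- a uniform exponent
  obtain ⟨m, hm0, hK⟩ : ∃ m : ℕ, m ≠ 0 ∧ ∀ σ ∈ A.inertiaSubgroupIn ℚ, f σ ^ m = 1 := by
    have h1 : ((fun σ : GQ => f σ) '' (A.inertiaSubgroupIn ℚ : Set GQ)).Finite :=
      (finite_image hop).subset (by rintro _ ⟨σ, -, rfl⟩; exact ⟨σ, rfl⟩)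
    have h2 : ∀ m ∈ (fun σ : GQ => f σ) '' (A.inertiaSubgroupIn ℚ : Set GQ), ∃ k : ℕ,
        k ≠ 0 ∧ m ^ k = 1 := by
      rintro _ ⟨σ, hσ, rfl⟩
      obtain ⟨k, hkv, hk⟩ := hpp σ hσ
      exact ⟨k, fun h => hkv (h ▸ dvd_zero v), hk⟩
    choose! k hk using h2
    refine ⟨∏ x ∈ h1.toFinset, k x, ?_, fun σ hσ => ?_⟩
    · rw [Finset.prod_ne_zero_iff]
      intro x hx
      exact (hk x (h1.mem_toFinset.1 hx)).1
    · have h3 : f σ ∈ (fun σ : GQ => f σ) '' (A.inertiaSubgroupIn ℚ : Set GQ) := ⟨σ, hσ, rfl⟩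
      obtain ⟨d, hd⟩ := Finset.dvd_prod_of_mem k (h1.mem_toFinset.2 h3)
      rw [hd, pow_mul, (hk _ h3).2, one_pow]
  let E : Set Ω := {x | ∀ τ ∈ kerI f A, τ x = x}
  -- the value group
  have hval : ∀ x ∈ E, x ≠ 0 → ∃ n : ℤ, (m : ℚ) * (rval A v hA).w x = n := by
    intro x hx hx0
    rw [← RVal.w_pow hx0]
    refine w_int_of_tame' hop hpp hA (pow_ne_zero m hx0) (fun τ hτ => by
      rw [map_pow, hx τ hτ]) (fun σ hσ => ?_)
    rw [th_pow hA (pres_of_mem hσ) hx0, ← th_pow_left hA hx0 hσ, th,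
      hx (σ ^ m) ((mem_kerI f).2 ⟨pow_mem hσ _, by rw [map_pow, hK σ hσ]⟩), div_self hx0, rs_one]
  let S : AddSubgroup ℤ :=
    { carrier := {k | ∃ x ∈ E, x ≠ 0 ∧ (m : ℚ) * (rval A v hA).w x = k}
      add_mem' := by
        rintro a b ⟨x, hx, hx0, ha⟩ ⟨y, hy, hy0, hb⟩
        refine ⟨x * y, fun τ hτ => by rw [map_mul, hx τ hτ, hy τ hτ], mul_ne_zero hx0 hy0, ?_⟩
        rw [RVal.w_mul hx0 hy0, mul_add, ha, hb]
        push_cast; ring
      zero_mem' := ⟨1, fun τ _ => map_one τ, one_ne_zero, by rw [RVal.w_one]; simp⟩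
      neg_mem' := by
        rintro a ⟨x, hx, hx0, ha⟩
        refine ⟨x⁻¹, fun τ hτ => by rw [map_inv₀, hx τ hτ], inv_ne_zero hx0, ?_⟩
        rw [RVal.w_inv hx0, mul_neg, ha]
        push_cast; ring }
  obtain ⟨d, hd⟩ := Int.subgroup_cyclic S
  have hdS : d ∈ S := by rw [hd]; exact AddSubgroup.subset_closure rfl
  obtain ⟨x₀, hx₀, hx₀0, hwx₀⟩ := hdS
  have hdet : ∀ σ ∈ A.inertiaSubgroupIn ℚ, th A σ x₀ = 1 → f σ = 1 := by
    intro σ hσ hth
    refine eq_one_of_th' hop hpp hA hσ fun x hx0 hx => ?_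
    obtain ⟨n, hn⟩ := hval x hx hx0
    have hnS : n ∈ S := ⟨x, hx, hx0, hn⟩
    rw [hd, AddSubgroup.mem_closure_singleton] at hnS
    obtain ⟨j, hj⟩ := hnS
    have hw : (rval A v hA).w x = (rval A v hA).w (x₀ ^ j) := by
      rw [RVal.w_zpow hx₀0]
      have hmQ : (m : ℚ) ≠ 0 := Nat.cast_ne_zero.2 hm0
      apply mul_left_cancel₀ hmQ
      rw [hn, ← hj, mul_left_comm, hwx₀]
      push_cast
      rw [zsmul_eq_mul]
      push_cast
      ring
    rw [th_eq_of_w hA hσ hx0 (zpow_ne_zero j hx₀0) hw]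
    have hzp : ∀ j : ℕ, th A σ (x₀ ^ j) = 1 := fun j => by
      rw [th_pow hA (pres_of_mem hσ) hx₀0, hth, one_pow]
    have hinv : ∀ y : Ω, y ≠ 0 → th A σ y = 1 → th A σ y⁻¹ = 1 := by
      intro y hy hy1
      have := th_mul hA (pres_of_mem hσ) hy (inv_ne_zero hy)
      rw [mul_inv_cancel₀ hy, th_one, hy1, one_mul] at this
      exact this.symm
    obtain ⟨j, rfl | rfl⟩ := j.eq_nat_or_neg
    · rw [zpow_natCast]; exact hzp j
    · rw [zpow_neg, zpow_natCast]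
      exact hinv _ (pow_ne_zero _ hx₀0) (hzp j)
  have hfin : {t | ∃ σ ∈ A.inertiaSubgroupIn ℚ, th A σ x₀ = t}.Finite := by
    have hP : (Polynomial.X ^ m - 1 : Polynomial (kk A)) ≠ 0 :=
      Polynomial.X_pow_sub_C_ne_zero (Nat.pos_of_ne_zero hm0) 1
    refine Set.Finite.subset
      ((Polynomial.X ^ m - 1 : Polynomial (kk A)).roots.toFinset.finite_toSet) ?_
    rintro _ ⟨σ, hσ, rfl⟩
    rw [Finset.mem_coe, Multiset.mem_toFinset, Polynomial.mem_roots hP]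
    have : th A σ x₀ ^ m = 1 := by
      rw [← th_pow_left hA hx₀0 hσ, th,
        hx₀ (σ ^ m) ((mem_kerI f).2 ⟨pow_mem hσ _, by rw [map_pow, hK σ hσ]⟩), div_self hx₀0,
        rs_one]
    simp [this]
  obtain ⟨σ₀, hσ₀, hgen, -, -⟩ := exists_gen hA hx₀0 hfin
  refine ⟨σ₀, hσ₀, fun σ hσ => ?_⟩
  obtain ⟨n, hn⟩ := hgen σ hσ
  refine ⟨n, ?_⟩
  have hmem : σ * (σ₀ ^ n)⁻¹ ∈ A.inertiaSubgroupIn ℚ := mul_mem hσ (inv_mem (pow_mem hσ₀ n))
  have h1 : th A (σ * (σ₀ ^ n)⁻¹) x₀ = 1 := by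
    have h2 : th A ((σ * (σ₀ ^ n)⁻¹) * σ₀ ^ n) x₀ = _ :=
      th_comp hA hmem (pres_of_mem (pow_mem hσ₀ n)) hx₀0
    rw [inv_mul_cancel_right, hn, ← th_pow_left hA hx₀0 hσ₀] at h2
    have h3 : th A (σ₀ ^ n) x₀ ≠ 0 := th_ne_zero hA hx₀0 (pow_mem hσ₀ n)
    exact (mul_eq_right₀ h3).1 h2.symm
  have h2 := hdet _ hmem h1
  have h3 : f σ = f (σ * (σ₀ ^ n)⁻¹) * f (σ₀ ^ n) := by rw [← map_mul, inv_mul_cancel_right]
  rw [h3, h2, one_mul, map_pow]

end Fermat.Agent.ImW
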