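import Fermat.Agent.ImW.MinkCyc
import Fermat.Agent.ImW.Tame
import Fermat.Agent.MazD.Minko
import Fermat.Agent.TWG.Irr
import Fermat.Agent.Sel.TWHyp

/-!
# Odd representations with unipotent ramification outside `p = 3, 5` have no dihedral image
-/

set_option autoImplicit false
set_option linter.unusedSectionVars false
set_option linter.style.haveILetI false

noncomputable section

namespace Fermat.Agent.ImW

open Matrix Fermat.Agent.Sel Fermat.Agent.GalRep Fermat.Agent.Places Fermat.Agent.TWG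

local notation "Ω" => AlgebraicClosure ℚ

local notation "𝒢" => (AlgebraicClosure ℚ) ≃ₐ[ℚ] (AlgebraicClosure ℚ)

/-- the properties of the matrix representation on the `p`-torsion of a semistable curve -/
structure OddRep {k : Type} [Field k] (p : ℕ) [Fact p.Prime] (ι : ZMod p →+* k)
    (ρ : 𝒢 →* M2 k) : Prop where
  conj : ρ complexConjugation = !![1, 0; 0, -1]
  e01 : ∃ g, ρ g 0 1 ≠ 0
  e10 : ∃ g, ρ g 1 0 ≠ 0
  det : ∀ σ, (ρ σ).det = ι (cyc p σ)
  lc : ∃ F : IntermediateField ℚ Ω, FiniteDimensional ℚ F ∧ ∀ σ : 𝒢, (∀ x ∈ F, σ x = x) → ρ σ = 1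
  unip : ∀ q : ℕ, q.Prime → q ≠ p → ∀ A : ValuationSubring Ω, A.LiesOverPrime q →
    ∀ σ ∈ A.inertiaSubgroupIn ℚ, (ρ σ - 1) * (ρ σ - 1) = 0

/-! ### matrices -/

section mat

variable {k : Type} [Field k]

theorem nil_tr {N : M2 k} (hN : N * N = 0) : N 0 0 + N 1 1 = 0 := by
  have f1 := congrFun (congrFun hN 0) 0
  have f2 := congrFun (congrFun hN 0) 1
  have f3 := congrFun (congrFun hN 1) 0
  have f4 := congrFun (congrFun hN 1) 1
  simp only [Matrix.mul_apply, Fin.sum_univ_two, Matrix.zero_apply] at f1 f2 f3 f4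
  by_contra hne
  have g2 : N 0 1 = 0 := by
    have : (N 0 0 + N 1 1) * N 0 1 = 0 := by linear_combination f2
    exact (mul_eq_zero.1 this).resolve_left hne
  have g3 : N 1 0 = 0 := by
    have : (N 0 0 + N 1 1) * N 1 0 = 0 := by linear_combination f3
    exact (mul_eq_zero.1 this).resolve_left hne
  rw [g2, zero_mul, add_zero] at f1
  rw [g3, zero_mul, zero_add] at f4
  exact hne (by rw [mul_self_eq_zero.1 f1, mul_self_eq_zero.1 f4, add_zero])

/-- nilpotent elements commuting with a nondegenerate trace zero matrix vanish -/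
theorem nil_comm (h2 : (2 : k) ≠ 0) {X N : M2 k} (hX : X.trace = 0) (hXd : X.det ≠ 0)
    (hN : N * N = 0) (hc : X * N = N * X) : N = 0 := by
  have ht := nil_tr hN
  have f1 := congrFun (congrFun hN 0) 0
  have c1 := congrFun (congrFun hc 0) 0
  have c2 := congrFun (congrFun hc 0) 1
  have c3 := congrFun (congrFun hc 1) 0
  simp only [Matrix.mul_apply, Fin.sum_univ_two, Matrix.zero_apply] at f1 c1 c2 c3
  rw [Matrix.trace_fin_two] at hX
  rw [Matrix.det_fin_two] at hXd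
  have h11 : N 1 1 = - N 0 0 := by linear_combination ht
  have hX11 : X 1 1 = - X 0 0 := by linear_combination hX
  rw [hX11] at hXd c2 c3
  rw [h11] at c2 c3
  have e1 : X 1 0 * N 0 1 = X 0 1 * N 1 0 := by linear_combination -c1
  have e2 : X 0 0 * N 0 1 = X 0 1 * N 0 0 := by
    apply mul_left_cancel₀ h2
    linear_combination c2
  have e3 : X 1 0 * N 0 0 = X 0 0 * N 1 0 := by
    apply mul_left_cancel₀ h2
    linear_combination c3
  have hd : X 0 0 * X 0 0 + X 0 1 * X 1 0 ≠ 0 := by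
    intro h
    apply hXd
    linear_combination -h
  have n00 : N 0 0 = 0 := by
    have : (X 0 0 * X 0 0 + X 0 1 * X 1 0) * (N 0 0 * N 0 0) = 0 := by
      linear_combination X 0 0 * X 0 0 * f1 - X 0 0 * N 1 0 * e2 + X 0 1 * N 0 0 * e3
    exact mul_self_eq_zero.1 ((mul_eq_zero.1 this).resolve_left hd)
  have n01 : N 0 1 = 0 := by
    have : (X 0 0 * X 0 0 + X 0 1 * X 1 0) * (N 0 1 * N 0 1) = 0 := by
      linear_combination X 0 1 * X 0 1 * f1 + (X 0 0 * N 0 1 + X 0 1 * N 0 0) * e2 +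
        X 0 1 * N 0 1 * e1
    exact mul_self_eq_zero.1 ((mul_eq_zero.1 this).resolve_left hd)
  have n10 : N 1 0 = 0 := by
    have : (X 0 0 * X 0 0 + X 0 1 * X 1 0) * (N 1 0 * N 1 0) = 0 := by
      linear_combination X 1 0 * X 1 0 * f1 - (X 0 0 * N 1 0 + X 1 0 * N 0 0) * e3 -
        X 1 0 * N 1 0 * e1
    exact mul_self_eq_zero.1 ((mul_eq_zero.1 this).resolve_left hd)
  ext i j
  fin_cases i <;> fin_cases j
  · exact n00
  · exact n01
  · exact n10
  · change N 1 1 = 0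
    rw [h11, n00, neg_zero]

/-- nilpotent `2 × 2` matrices have square zero -/
theorem sq_of_nil {N : M2 k} {n : ℕ} (h : N ^ n = 0) : N * N = 0 := by
  have hd : N.det = 0 := by
    have := congrArg Matrix.det h
    rw [Matrix.det_pow, Matrix.det_zero] at this
    exact pow_eq_zero_iff (by
      rintro rfl
      rw [pow_zero] at this
      exact one_ne_zero this) |>.1 this
  have hch : N * N = N.trace • N := by
    rw [Matrix.det_fin_two] at hd
    ext i j
    rw [Matrix.smul_apply, Matrix.mul_apply, Fin.sum_univ_two, Matrix.trace_fin_two, smul_eq_mul]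
    fin_cases i <;> fin_cases j
    · change N 0 0 * N 0 0 + N 0 1 * N 1 0 = (N 0 0 + N 1 1) * N 0 0
      linear_combination -hd
    · change N 0 0 * N 0 1 + N 0 1 * N 1 1 = (N 0 0 + N 1 1) * N 0 1
      ring
    · change N 1 0 * N 0 0 + N 1 1 * N 1 0 = (N 0 0 + N 1 1) * N 1 0
      ring
    · change N 1 0 * N 0 1 + N 1 1 * N 1 1 = (N 0 0 + N 1 1) * N 1 1
      linear_combination -hd
  have hpow : ∀ m : ℕ, N ^ (m + 1) = N.trace ^ m • N := by
    intro m
    induction m with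
    | zero => rw [zero_add, pow_one, pow_zero, one_smul]
    | succ m ih => rw [pow_succ, ih, smul_mul_assoc, hch, smul_smul, ← pow_succ]
  rcases n with _ | m
  · rw [pow_zero] at h
    have : (1 : M2 k) * (N * N) = 0 := by rw [h, zero_mul]
    rwa [one_mul] at this
  · rw [hpow m] at h
    rcases smul_eq_zero.1 h with h1 | h1
    · rw [hch, (pow_eq_zero_iff (by
        rintro rfl
        rw [pow_zero] at h1
        exact one_ne_zero h1)).1 h1, zero_smul]
    · rw [h1, mul_zero]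

end mat

/-! ### the argument -/

section arg

variable {k : Type} [Field k] {p : ℕ} [hp : Fact p.Prime] [CharP k p] {ι : ZMod p →+* k}
  {ρ : 𝒢 →* M2 k} (R : OddRep p ι ρ)

theorem mul_inv'' (g : 𝒢) : ρ g * ρ g⁻¹ = 1 := by rw [← map_mul, mul_inv_cancel, map_one]

theorem inv_mul'' (g : 𝒢) : ρ g⁻¹ * ρ g = 1 := by rw [← map_mul, inv_mul_cancel, map_one]

theorem two_ne (hp2 : p ≠ 2) : (2 : k) ≠ 0 := by
  intro h
  have h3 : ((2 : ℕ) : k) = 0 := by exact_mod_cast h
  rw [CharP.cast_eq_zero_iff k p] at h3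
  exact hp2 ((Nat.prime_dvd_prime_iff_eq hp.out Nat.prime_two).1 h3)

/-- the set of elements acting by a sign on `X` -/
theorem sign_of_det (X : M2 k) (hXd : X.det ≠ 0) {g : 𝒢} {c : k} (h : ρ g * X * ρ g⁻¹ = c • X) :
    c = 1 ∨ c = -1 := by
  have h1 := congrArg Matrix.det h
  rw [Matrix.det_mul, Matrix.det_mul, mul_right_comm, ← Matrix.det_mul, mul_inv'', Matrix.det_one,
    one_mul, Matrix.det_smul, Fintype.card_fin] at h1
  have h2 : c ^ 2 = 1 := by
    apply mul_right_cancel₀ hXd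
    rw [one_mul, ← h1]
  exact sq_eq_one_iff.1 h2

variable {X : M2 k} (hX : X.trace = 0) (hXd : X.det ≠ 0)
  (hXg : ∀ g, ρ g * X = X * ρ g ∨ ρ g * X = - (X * ρ g))

/-- the centralizer -/
def CX (ρ : 𝒢 →* M2 k) (X : M2 k) : Subgroup 𝒢 where
  carrier := {g | ρ g * X = X * ρ g}
  one_mem' := by
    change ρ 1 * X = X * ρ 1
    rw [map_one, one_mul, mul_one]
  mul_mem' := fun {a b} (ha : ρ a * X = X * ρ a) (hb : ρ b * X = X * ρ b) => by
    change ρ (a * b) * X = X * ρ (a * b)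
    rw [map_mul, mul_assoc, hb, ← mul_assoc, ha, mul_assoc]
  inv_mem' := fun {a} (ha : ρ a * X = X * ρ a) => by
    change ρ a⁻¹ * X = X * ρ a⁻¹
    have h1 : ρ a⁻¹ * (ρ a * X) * ρ a⁻¹ = ρ a⁻¹ * (X * ρ a) * ρ a⁻¹ := by rw [ha]
    rw [← mul_assoc, inv_mul'', one_mul, mul_assoc, mul_assoc, mul_inv'', mul_one] at h1
    exact h1.symm

theorem mem_CX {g : 𝒢} : g ∈ CX ρ X ↔ ρ g * X = X * ρ g := Iff.rfl

include hXd hXg in
/-- elements acting by `-1` have trace zero -/
theorem trace_of_not {g : 𝒢} (hp2 : p ≠ 2) (hg : g ∉ CX ρ X) : (ρ g).trace = 0 := by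
  have h2 : (2 : k) ≠ 0 := two_ne hp2
  have h1 := (hXg g).resolve_left hg
  have h3 : ρ g = - (X * ρ g * X⁻¹) := by
    have h4 : ρ g * X * X⁻¹ = - (X * ρ g) * X⁻¹ := by rw [h1]
    rw [mul_assoc, Matrix.mul_nonsing_inv X (isUnit_iff_ne_zero.2 hXd), mul_one, neg_mul] at h4
    exact h4
  have h4 := congrArg Matrix.trace h3
  rw [Matrix.trace_neg, Matrix.trace_mul_comm, ← mul_assoc,
    Matrix.nonsing_inv_mul X (isUnit_iff_ne_zero.2 hXd), one_mul] at h4
  have h5 : 2 * (ρ g).trace = 0 := by linear_combination h4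
  exact (mul_eq_zero.1 h5).resolve_left h2

include hX hXd hXg in
/-- unipotent elements of the image are trivial -/
theorem eq_one_of_unip (hp2 : p ≠ 2) {g : 𝒢} (hg : (ρ g - 1) * (ρ g - 1) = 0) : ρ g = 1 := by
  have h2 : (2 : k) ≠ 0 := two_ne hp2
  have ht := nil_tr hg
  have hc : g ∈ CX ρ X := by
    by_contra hne
    have h3 := trace_of_not hXd hXg hp2 hne
    rw [Matrix.trace_fin_two] at h3
    simp only [Matrix.sub_apply, Matrix.one_apply_eq] at ht
    apply h2
    linear_combination h3 - ht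
  rw [mem_CX] at hc
  have h3 := nil_comm h2 hX hXd hg (by rw [mul_sub, sub_mul, hc, mul_one, one_mul])
  exact sub_eq_zero.1 h3

include hX hXd hXg R in
/-- the image has order prime to `p` -/
theorem order_prime (hp2 : p ≠ 2) (g : 𝒢) : ∃ m : ℕ, ¬ p ∣ m ∧ ρ g ^ m = 1 := by
  have h2 : (2 : k) ≠ 0 := two_ne hp2
  have hfin := TW.finite_image (f := ρ) R.lc
  obtain ⟨n, hn0, hn⟩ : ∃ n : ℕ, n ≠ 0 ∧ ρ g ^ n = 1 := by
    have h3 : (Set.range fun n : ℕ => ρ g ^ n).Finite := by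
      refine hfin.subset ?_
      rintro _ ⟨n, rfl⟩
      exact ⟨g ^ n, map_pow _ _ _⟩
    obtain ⟨a, b, hab, hne⟩ : ∃ a b : ℕ, a < b ∧ ρ g ^ a = ρ g ^ b := by
      by_contra hcon
      push Not at hcon
      refine Set.infinite_range_of_injective (f := fun n : ℕ => ρ g ^ n) ?_ h3
      intro a b hab
      rcases lt_trichotomy a b with h | h | h
      · exact absurd hab (hcon a b h)
      · exact h
      · exact absurd hab.symm (hcon b a h)
    refine ⟨b - a, by omega, ?_⟩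
    have h4 : ρ g ^ b = ρ g ^ a * ρ g ^ (b - a) := by
      rw [← pow_add]
      congr 1
      omega
    rw [← hne] at h4
    have h5 := congrArg (fun Y => (ρ g⁻¹) ^ a * Y) h4
    change (ρ g⁻¹) ^ a * ρ g ^ a = (ρ g⁻¹) ^ a * (ρ g ^ a * ρ g ^ (b - a)) at h5
    rw [← mul_assoc, ← map_pow, ← map_pow, ← map_mul, inv_pow, inv_mul_cancel, map_one, one_mul] at h5
    exact h5.symm
  obtain ⟨a, m, hm, rfl⟩ := Nat.exists_eq_pow_mul_and_not_dvd hn0 p hp.out.ne_one
  refine ⟨2 * m, ?_, ?_⟩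
  · intro h
    rcases (hp.out.dvd_mul).1 h with h | h
    · exact hp2 ((Nat.prime_dvd_prime_iff_eq hp.out Nat.prime_two).1 h)
    · exact hm h
  · rw [← map_pow]
    have h3 : (ρ (g ^ (2 * m)) - 1) ^ (p ^ a) = 0 := by
      rw [sub_pow_char_pow_of_commute _ _ (Commute.one_right _), one_pow, map_pow, ← pow_mul,
        show 2 * m * p ^ a = p ^ a * m * 2 by ring, pow_mul, hn, one_pow, sub_self]
    exact eq_one_of_unip hX hXd hXg hp2 (sq_of_nil h3)

end arg

/-! ### the cyclotomic character on inertia -/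

theorem not_sq_two {p : ℕ} (hp35 : p = 3 ∨ p = 5) : ¬ IsSquare ((2 : ℕ) : ZMod p) := by
  rcases hp35 with rfl | rfl
  · rintro ⟨x, hx⟩
    revert x
    decide
  · rintro ⟨x, hx⟩
    revert x
    decide

/-- the subgroup of elements with square cyclotomic character -/
def SQ (p : ℕ) [Fact p.Prime] : Subgroup 𝒢 where
  carrier := {g | IsSquare (cyc p g)}
  one_mem' := by
    change IsSquare (cyc p 1)
    rw [map_one]
    exact IsSquare.one
  mul_mem' := fun {a b} (ha : IsSquare (cyc p a)) (hb : IsSquare (cyc p b)) => by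
    change IsSquare (cyc p (a * b))
    rw [map_mul]
    exact ha.mul hb
  inv_mem' := fun {a} (ha : IsSquare (cyc p a)) => by
    change IsSquare (cyc p a⁻¹)
    have h1 : cyc p a⁻¹ = (cyc p a⁻¹ * cyc p a⁻¹) * cyc p a := by
      rw [mul_assoc, ← map_mul (cyc p) a⁻¹ a, inv_mul_cancel, map_one, mul_one]
    rw [h1]
    exact (IsSquare.mul_self _).mul ha

theorem mem_SQ {p : ℕ} [Fact p.Prime] {g : 𝒢} : g ∈ SQ p ↔ IsSquare (cyc p g) := Iff.rfl

theorem isOpen_SQ (p : ℕ) [hp : Fact p.Prime] : IsOpen (SQ p : Set 𝒢) := by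
  obtain ⟨F, hF, hF'⟩ := exists_level_cyc p
  haveI := hF
  refine Subgroup.isOpen_mono (H₁ := F.fixingSubgroup) ?_ F.fixingSubgroup_isOpen
  intro σ hσ
  rw [IntermediateField.mem_fixingSubgroup_iff] at hσ
  rw [mem_SQ, hF' σ hσ]
  exact IsSquare.one

/-- conjugate places -/
theorem exists_conj_inertia {q : ℕ} (hq : q.Prime) {A B : ValuationSubring Ω}
    (hA : A.LiesOverPrime q) (hB : B.LiesOverPrime q) {τ : 𝒢} (hτ : τ ∈ A.inertiaSubgroupIn ℚ) :
    ∃ g : 𝒢, g * τ * g⁻¹ ∈ B.inertiaSubgroupIn ℚ := by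
  obtain ⟨g, rfl⟩ := exists_smul_eq_of_liesOverPrime hq B A hB hA
  refine ⟨g⁻¹, ?_⟩
  have := MazD.mem_inertia_smul hτ
  rwa [inv_inv]

theorem exists_inertia_nonsq {p : ℕ} [hp : Fact p.Prime] (hp35 : p = 3 ∨ p = 5)
    {B : ValuationSubring Ω} (hB : B.LiesOverPrime p) :
    ∃ σ ∈ B.inertiaSubgroupIn ℚ, ¬ IsSquare (cyc p σ) := by
  by_contra hcon
  push Not at hcon
  have h1 : SQ p = ⊤ := by
    refine eq_top_of_inertia_le (SQ p) (isOpen_SQ p) fun q hq A hA τ hτ => ?_
    rw [mem_SQ]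
    rcases eq_or_ne q p with rfl | hqp
    · obtain ⟨g, hg⟩ := exists_conj_inertia hq hA hB hτ
      have h2 := hcon _ hg
      have h3 : cyc q (g * τ * g⁻¹) = cyc q τ := by
        rw [map_mul, map_mul, mul_right_comm, ← map_mul, mul_inv_cancel, map_one, one_mul]
      rwa [h3] at h2
    · rw [cyc_inertia ((Nat.coprime_primes hq hp.out).2 hqp) hA hτ]
      exact IsSquare.one
  have hp2 : p ≠ 2 := by rcases hp35 with rfl | rfl <;> decide
  obtain ⟨σ, hσ⟩ := cyc_surj p 2 ((Nat.coprime_primes Nat.prime_two hp.out).2 (Ne.symm hp2))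
  have h2 : σ ∈ SQ p := by rw [h1]; trivial
  rw [mem_SQ, hσ] at h2
  exact not_sq_two hp35 h2

/-! ### the main argument -/

section main

variable {k : Type} [Field k] {p : ℕ} [hp : Fact p.Prime] [CharP k p] {ι : ZMod p →+* k}
  {ρ : 𝒢 →* M2 k} (R : OddRep p ι ρ) {X : M2 k} (hX : X.trace = 0) (hXd : X.det ≠ 0)
  (hXg : ∀ g, ρ g * X = X * ρ g ∨ ρ g * X = - (X * ρ g))

include R hX hXd in
theorem CX_ne_top (hp2 : p ≠ 2) : CX ρ X ≠ ⊤ := by
  have h2 : (2 : k) ≠ 0 := two_ne hp2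
  intro htop
  have hall : ∀ g, ρ g * X = X * ρ g := fun g => by
    have : g ∈ CX ρ X := by rw [htop]; trivial
    exact this
  obtain ⟨g, hg⟩ := R.e01
  have hC := hall complexConjugation
  rw [R.conj] at hC
  have c01 := congrFun (congrFun hC 0) 1
  have c10 := congrFun (congrFun hC 1) 0
  simp only [Matrix.mul_apply, Fin.sum_univ_two, Matrix.of_apply, Matrix.cons_val',
    Matrix.cons_val_zero, Matrix.cons_val_one, Matrix.cons_val_fin_one] at c01 c10
  have x01 : X 0 1 = 0 := by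
    have : 2 * X 0 1 = 0 := by linear_combination c01
    exact (mul_eq_zero.1 this).resolve_left h2
  have x10 : X 1 0 = 0 := by
    have : 2 * X 1 0 = 0 := by linear_combination -c10
    exact (mul_eq_zero.1 this).resolve_left h2
  rw [Matrix.trace_fin_two] at hX
  rw [Matrix.det_fin_two, x01, zero_mul, sub_zero] at hXd
  have x11 : X 1 1 = - X 0 0 := by linear_combination hX
  have x00 : X 0 0 ≠ 0 := left_ne_zero_of_mul hXd
  have h4 := congrFun (congrFun (hall g) 0) 1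
  simp only [Matrix.mul_apply, Fin.sum_univ_two, x01, x11, mul_zero, zero_add] at h4
  have h5 : (2 * X 0 0) * ρ g 0 1 = 0 := by linear_combination -h4
  exact hg ((mul_eq_zero.1 h5).resolve_left (mul_ne_zero h2 x00))

include R in
theorem isOpen_CX : IsOpen (CX ρ X : Set 𝒢) := by
  obtain ⟨F, hF, hF'⟩ := R.lc
  haveI := hF
  refine Subgroup.isOpen_mono (H₁ := F.fixingSubgroup) ?_ F.fixingSubgroup_isOpen
  intro σ hσ
  rw [IntermediateField.mem_fixingSubgroup_iff] at hσ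
  rw [mem_CX, hF' σ hσ, one_mul, mul_one]

include hXd in
theorem X_mul_cancel {Y Z : M2 k} (h : X * Y = X * Z) : Y = Z := by
  have h1 : X⁻¹ * (X * Y) = X⁻¹ * (X * Z) := by rw [h]
  rwa [← mul_assoc, ← mul_assoc, Matrix.nonsing_inv_mul X (isUnit_iff_ne_zero.2 hXd), one_mul,
    one_mul] at h1

include hXg in
theorem conj_mem_CX (g τ : 𝒢) (h : g * τ * g⁻¹ ∈ CX ρ X) : τ ∈ CX ρ X := by
  have hn : ∀ g' ∈ ({g, g⁻¹} : Set 𝒢), True := fun _ _ => trivial
  rw [mem_CX] at h ⊢
  have h1 : ρ τ = ρ g⁻¹ * ρ (g * τ * g⁻¹) * ρ g := by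
    rw [← map_mul, ← map_mul]
    congr 1
    group
  have hg' := hXg g⁻¹
  have hg := hXg g
  rw [h1]
  have e1 : ρ g⁻¹ * ρ (g * τ * g⁻¹) * ρ g * X = ρ g⁻¹ * ρ (g * τ * g⁻¹) * (ρ g * X) := by
    noncomm_ring
  have e2 : X * (ρ g⁻¹ * ρ (g * τ * g⁻¹) * ρ g) = (X * ρ g⁻¹) * ρ (g * τ * g⁻¹) * ρ g := by
    noncomm_ring
  rw [e1, e2]
  have h0 : ρ g⁻¹ * (ρ g * X) * ρ g⁻¹ = X * ρ g⁻¹ := by
    rw [← mul_assoc (ρ g⁻¹), inv_mul'', one_mul]
  rcases hg with hg | hg
  · have h3 : X * ρ g⁻¹ = ρ g⁻¹ * X := by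
      rw [← h0, hg, mul_assoc, mul_assoc, mul_inv'', mul_one]
    rw [hg, h3]
    have e3 : ρ g⁻¹ * ρ (g * τ * g⁻¹) * (X * ρ g) = ρ g⁻¹ * (ρ (g * τ * g⁻¹) * X) * ρ g := by
      noncomm_ring
    rw [e3, h]
    noncomm_ring
  · have h3 : X * ρ g⁻¹ = - (ρ g⁻¹ * X) := by
      rw [← h0, hg, mul_neg, neg_mul, mul_assoc, mul_assoc, mul_inv'', mul_one]
    rw [hg, h3]
    have e3 : ρ g⁻¹ * ρ (g * τ * g⁻¹) * -(X * ρ g) = -(ρ g⁻¹ * (ρ (g * τ * g⁻¹) * X) * ρ g) := by
      noncomm_ring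
    rw [e3, h]
    noncomm_ring

include R hX hXd hXg in
/-- inertia at `p` contains elements acting by `-1` -/
theorem exists_neg (hp2 : p ≠ 2) {B : ValuationSubring Ω} (hB : B.LiesOverPrime p) :
    ∃ σ ∈ B.inertiaSubgroupIn ℚ, σ ∉ CX ρ X := by
  by_contra hcon
  push Not at hcon
  apply CX_ne_top R hX hXd hp2
  refine eq_top_of_inertia_le (CX ρ X) (isOpen_CX R) fun q hq A hA τ hτ => ?_
  rcases eq_or_ne q p with rfl | hqp
  · obtain ⟨g, hg⟩ := exists_conj_inertia hq hA hB hτ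
    exact conj_mem_CX hXg g τ (hcon _ hg)
  · rw [mem_CX, eq_one_of_unip hX hXd hXg hp2 (R.unip q hq hqp A hA τ hτ), one_mul, mul_one]

/-- trace zero matrices have scalar square -/
theorem sq_of_tr {T : M2 k} (hT : T.trace = 0) : T * T = (-T.det) • 1 := by
  rw [Matrix.trace_fin_two] at hT
  rw [Matrix.det_fin_two]
  have h11 : T 1 1 = - T 0 0 := by linear_combination hT
  ext i j
  rw [Matrix.smul_apply, Matrix.mul_apply, Fin.sum_univ_two, smul_eq_mul]
  fin_cases i <;> fin_cases j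
  · change T 0 0 * T 0 0 + T 0 1 * T 1 0 = -(T 0 0 * T 1 1 - T 0 1 * T 1 0) * (1 : M2 k) 0 0
    rw [Matrix.one_apply_eq, h11]; ring
  · change T 0 0 * T 0 1 + T 0 1 * T 1 1 = -(T 0 0 * T 1 1 - T 0 1 * T 1 0) * (1 : M2 k) 0 1
    rw [Matrix.one_apply_ne (by decide), h11]; ring
  · change T 1 0 * T 0 0 + T 1 1 * T 1 0 = -(T 0 0 * T 1 1 - T 0 1 * T 1 0) * (1 : M2 k) 1 0
    rw [Matrix.one_apply_ne (by decide), h11]; ring
  · change T 1 0 * T 0 1 + T 1 1 * T 1 1 = -(T 0 0 * T 1 1 - T 0 1 * T 1 0) * (1 : M2 k) 1 1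
    rw [Matrix.one_apply_eq, h11]; ring

include R hX hXd hXg in
/-- the elements of inertia at `p` with trivial cyclotomic character are scalar -/
theorem inertia_scalar (hp35 : p = 3 ∨ p = 5) {B : ValuationSubring Ω} (hB : B.LiesOverPrime p)
    {τ : 𝒢} (hτ : τ ∈ B.inertiaSubgroupIn ℚ) (hcτ : cyc p τ = 1) : ∃ s : k, ρ τ = s • 1 := by
  have hp2 : p ≠ 2 := by rcases hp35 with rfl | rfl <;> decide
  obtain ⟨σ₀, hσ₀, hgen⟩ := exists_gen_tame' (f := ρ) (A := B) (v := p) R.lc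
    (fun σ _ => order_prime R hX hXd hXg hp2 σ) hB
  -- the generator acts by `-1`
  have hneg : σ₀ ∉ CX ρ X := by
    intro h
    obtain ⟨σ, hσ, hσn⟩ := exists_neg R hX hXd hXg hp2 hB
    obtain ⟨n, hn⟩ := hgen σ hσ
    apply hσn
    have h1 : σ₀ ^ n ∈ CX ρ X := pow_mem h n
    rw [mem_CX, map_pow] at h1
    rw [mem_CX, hn]
    exact h1
  have htr := trace_of_not hXd hXg hp2 hneg
  -- the cyclotomic character of the generator is not a square
  have hns : ¬ IsSquare (cyc p σ₀) := by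
    intro h
    obtain ⟨σ, hσ, hσn⟩ := exists_inertia_nonsq hp35 hB
    obtain ⟨n, hn⟩ := hgen σ hσ
    apply hσn
    have h1 := congrArg Matrix.det hn
    rw [Matrix.det_pow, R.det, R.det, ← map_pow] at h1
    rw [ι.injective h1]
    exact h.pow n
  obtain ⟨n, hn⟩ := hgen τ hτ
  have h1 := congrArg Matrix.det hn
  rw [Matrix.det_pow, R.det, R.det, ← map_pow, hcτ] at h1
  have h3 := ι.injective h1
  rcases Nat.even_or_odd n with ⟨j, rfl⟩ | ⟨j, rfl⟩
  · refine ⟨(-(ρ σ₀).det) ^ j, ?_⟩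
    rw [hn, ← two_mul, pow_mul, sq, sq_of_tr htr, smul_pow, one_pow]
  · exfalso
    apply hns
    refine ⟨cyc p σ₀ ^ (j + 1), ?_⟩
    have h4 : cyc p σ₀ * cyc p σ₀ ^ (2 * j + 1) = cyc p σ₀ * 1 := by rw [← h3]
    rw [mul_one] at h4
    refine h4.symm.trans ?_
    ring

/-- the subgroup of scalar elements -/
def ScG (ρ : 𝒢 →* M2 k) : Subgroup 𝒢 where
  carrier := {g | ∃ s : k, ρ g = s • 1}
  one_mem' := ⟨1, by rw [map_one, one_smul]⟩
  mul_mem' := by
    rintro a b ⟨s, hs⟩ ⟨t, ht⟩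
    exact ⟨s * t, by rw [map_mul, hs, ht, smul_mul_smul_comm, one_mul]⟩
  inv_mem' := by
    rintro a ⟨s, hs⟩
    have h1 := mul_inv'' (ρ := ρ) a
    rw [hs, smul_mul_assoc, one_mul] at h1
    refine ⟨s⁻¹, ?_⟩
    have hs0 : s ≠ 0 := by
      rintro rfl
      rw [zero_smul] at h1
      exact zero_ne_one h1
    rw [← h1, smul_smul, inv_mul_cancel₀ hs0, one_smul]

theorem mem_ScG {g : 𝒢} : g ∈ ScG ρ ↔ ∃ s : k, ρ g = s • 1 := Iff.rfl

instance : (ScG ρ).Normal := ⟨by
  rintro g ⟨s, hs⟩ h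
  refine ⟨s, ?_⟩
  rw [map_mul, map_mul, hs, mul_smul_comm, smul_mul_assoc, mul_one, mul_inv'']⟩

include R in
theorem isOpen_ScG : IsOpen (ScG ρ : Set 𝒢) := by
  obtain ⟨F, hF, hF'⟩ := R.lc
  haveI := hF
  refine Subgroup.isOpen_mono (H₁ := F.fixingSubgroup) ?_ F.fixingSubgroup_isOpen
  intro σ hσ
  rw [IntermediateField.mem_fixingSubgroup_iff] at hσ
  exact ⟨1, by rw [hF' σ hσ, one_smul]⟩

include R hX hXd hXg in
theorem ker_cyc_scalar (hp35 : p = 3 ∨ p = 5) {g : 𝒢} (hg : cyc p g = 1) : ∃ s : k, ρ g = s • 1 := by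
  have hp2 : p ≠ 2 := by rcases hp35 with rfl | rfl <;> decide
  obtain ⟨ζ, hζ⟩ := exists_zeta p
  have hcyc : ∀ σ : 𝒢, cyc p σ = 1 ↔ σ ζ = ζ := by
    intro σ
    have h0 := apply_eq_pow_cyc p σ hζ.pow_eq_one
    haveI : Fact (1 < p) := ⟨hp.out.one_lt⟩
    constructor
    · intro h1
      rw [h1, ZMod.val_one, pow_one] at h0
      exact h0
    · intro h1
      have h2 : ζ ^ (cyc p σ).val = ζ ^ 1 := by rw [← h0, h1, pow_one]
      have h3 := hζ.pow_inj (ZMod.val_lt _) hp.out.one_lt h2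
      rw [← ZMod.natCast_zmod_val (cyc p σ), h3, Nat.cast_one]
  refine fix_le hp35 hζ (ScG ρ) (isOpen_ScG R) ?_ g ((hcyc g).1 hg)
  intro q hq A hA τ hτ hτζ
  rcases eq_or_ne q p with rfl | hqp
  · exact inertia_scalar R hX hXd hXg hp35 hA hτ ((hcyc τ).2 hτζ)
  · exact ⟨1, by rw [eq_one_of_unip hX hXd hXg hp2 (R.unip q hq hqp A hA τ hτ), one_smul]⟩

include R hX hXd hXg in
/-- **no dihedral image** -/
theorem false_of_sign (hp35 : p = 3 ∨ p = 5) : False := by
  have hp2 : p ≠ 2 := by rcases hp35 with rfl | rfl <;> decide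
  have h2 : (2 : k) ≠ 0 := two_ne hp2
  obtain ⟨u, hu⟩ := IsCyclic.exists_generator (α := (ZMod p)ˣ)
  obtain ⟨σ₁, hσ₁⟩ := cyc_surj p (u : ZMod p).val (ZMod.val_coe_unit_coprime u)
  rw [ZMod.natCast_zmod_val] at hσ₁
  have key : ∀ g : 𝒢, ∃ (n : ℕ) (s : k), ρ g = s • ρ σ₁ ^ n := by
    intro g
    have hgu : IsUnit (cyc p g) := by
      refine IsUnit.of_mul_eq_one (cyc p g⁻¹) ?_
      rw [← map_mul, mul_inv_cancel, map_one]
    obtain ⟨v, hv⟩ := hgu
    obtain ⟨n, hn⟩ := (mem_powers_iff_mem_zpowers.2 (hu v) : v ∈ Submonoid.powers u)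
    have h3 : cyc p (g * (σ₁ ^ n)⁻¹) = 1 := by
      have h4 : cyc p (g * (σ₁ ^ n)⁻¹) * cyc p (σ₁ ^ n) = cyc p (σ₁ ^ n) := by
        rw [← map_mul, inv_mul_cancel_right, ← hv, map_pow, hσ₁, ← hn]
        push_cast
        rfl
      have h5 : IsUnit (cyc p (σ₁ ^ n)) := by
        refine IsUnit.of_mul_eq_one (cyc p (σ₁ ^ n)⁻¹) ?_
        rw [← map_mul, mul_inv_cancel, map_one]
      exact h5.mul_right_cancel (by rw [h4, one_mul])
    obtain ⟨s, hs⟩ := ker_cyc_scalar R hX hXd hXg hp35 h3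
    refine ⟨n, s, ?_⟩
    have h6 : ρ g = ρ (g * (σ₁ ^ n)⁻¹) * ρ (σ₁ ^ n) := by
      rw [← map_mul, inv_mul_cancel_right]
    rw [h6, hs, smul_mul_assoc, one_mul, map_pow]
  obtain ⟨g, hg⟩ := R.e01
  obtain ⟨n, s, hn⟩ := key g
  obtain ⟨m, t, hm⟩ := key complexConjugation
  have hcomm : ρ g * ρ complexConjugation = ρ complexConjugation * ρ g := by
    rw [hn, hm, smul_mul_smul_comm, smul_mul_smul_comm, ← pow_add, ← pow_add, add_comm n m,
      mul_comm s t]
  rw [R.conj] at hcomm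
  have c01 := congrFun (congrFun hcomm 0) 1
  simp only [Matrix.mul_apply, Fin.sum_univ_two, Matrix.of_apply, Matrix.cons_val',
    Matrix.cons_val_zero, Matrix.cons_val_one, Matrix.cons_val_fin_one] at c01
  have h3 : 2 * ρ g 0 1 = 0 := by linear_combination -c01
  exact hg ((mul_eq_zero.1 h3).resolve_left h2)

end main

/-- **No invariant line in the adjoint representation.** -/
theorem noLine {k : Type} [Field k] {p : ℕ} [hp : Fact p.Prime] [CharP k p] {ι : ZMod p →+* k}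
    {ρ : 𝒢 →* M2 k} (R : OddRep p ι ρ) (hp35 : p = 3 ∨ p = 5) : NoLine ρ := by
  have hp2 : p ≠ 2 := by rcases hp35 with rfl | rfl <;> decide
  have h2 : (2 : k) ≠ 0 := two_ne hp2
  intro X hX hX0 hall
  by_cases hXd : X.det = 0
  · -- the nilpotent case
    have hall' : ∀ g, ∃ c : k, ρ g * X = c • (X * ρ g) := by
      intro g
      obtain ⟨c, hc⟩ := hall g
      refine ⟨c, ?_⟩
      rw [← smul_mul_assoc, ← hc, mul_assoc, inv_mul'', mul_one]
    obtain ⟨c, hc⟩ := hall' complexConjugation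
    rw [R.conj] at hc
    have c00 := congrFun (congrFun hc 0) 0
    have c01 := congrFun (congrFun hc 0) 1
    have c10 := congrFun (congrFun hc 1) 0
    simp only [Matrix.smul_apply, smul_eq_mul, Matrix.mul_apply, Fin.sum_univ_two, Matrix.of_apply, Matrix.cons_val',
      Matrix.cons_val_zero, Matrix.cons_val_one, Matrix.cons_val_fin_one] at c00 c01 c10
    rw [Matrix.trace_fin_two] at hX
    rw [Matrix.det_fin_two] at hXd
    have x11 : X 1 1 = - X 0 0 := by linear_combination hX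
    rw [x11] at hXd
    have x00 : X 0 0 = 0 := by
      by_contra hne
      have hc1 : c = 1 := by
        have : X 0 0 * c = X 0 0 * 1 := by linear_combination -c00
        exact mul_left_cancel₀ hne this
      rw [hc1] at c01 c10
      have x01 : X 0 1 = 0 := by
        have : 2 * X 0 1 = 0 := by linear_combination c01
        exact (mul_eq_zero.1 this).resolve_left h2
      rw [x01] at hXd
      apply hne
      have : X 0 0 * X 0 0 = 0 := by linear_combination -hXd
      exact mul_self_eq_zero.1 this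
    rw [x00] at hXd x11
    have hprod : X 0 1 * X 1 0 = 0 := by linear_combination -hXd
    rcases mul_eq_zero.1 hprod with h01 | h10
    · have h10 : X 1 0 ≠ 0 := by
        intro h
        apply hX0
        ext i j
        fin_cases i <;> fin_cases j
        · exact x00
        · exact h01
        · exact h
        · change X 1 1 = 0
          rw [x11, neg_zero]
      obtain ⟨g, hg⟩ := R.e01
      obtain ⟨c', hc'⟩ := hall' g
      have d00 := congrFun (congrFun hc' 0) 0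
      simp only [Matrix.smul_apply, smul_eq_mul, Matrix.mul_apply, Fin.sum_univ_two, x00, h01,
        mul_zero, zero_mul, zero_add, add_zero] at d00
      exact (mul_ne_zero hg h10) d00
    · have h01 : X 0 1 ≠ 0 := by
        intro h
        apply hX0
        ext i j
        fin_cases i <;> fin_cases j
        · exact x00
        · exact h
        · exact h10
        · change X 1 1 = 0
          rw [x11, neg_zero]
      obtain ⟨g, hg⟩ := R.e10
      obtain ⟨c', hc'⟩ := hall' g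
      have d11 := congrFun (congrFun hc' 1) 1
      simp only [Matrix.smul_apply, smul_eq_mul, Matrix.mul_apply, Fin.sum_univ_two, x11, h10,
        mul_zero, zero_mul, neg_zero, add_zero] at d11
      exact (mul_ne_zero hg h01) d11
  · refine false_of_sign R hX hXd (fun g => ?_) hp35
    obtain ⟨c, hc⟩ := hall g
    have hc' : ρ g * X = c • (X * ρ g) := by
      rw [← smul_mul_assoc, ← hc, mul_assoc, inv_mul'', mul_one]
    rcases sign_of_det X hXd hc with rfl | rfl
    · left; rw [hc', one_smul]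
    · right; rw [hc', neg_smul, one_smul]

end Fermat.Agent.ImW
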